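/-
[P6] of (G1) (helper11 #2768), helper17.

Coset representatives for `Γ₀(N) ∩ Γ⁰(ℓ)` and `Γ₀(Nℓ)` inside `Γ₀(N)` (`ℓ ∤ N` prime) and the
expression of the Hecke operator `T_ℓ` as a sum of slashes over them, on both sides
(`bp * rA i` and `bp⁻¹ * rB i`, with `bp = diag(1, ℓ)`).
-/
import Mathlib
import Fermat.Prelude.Def_ModularForm_HeckeOperator

set_option autoImplicit false

noncomputable section

namespace Fermat.Agent.S33.Pet.HeckeCosets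

open scoped MatrixGroups ModularForm
open Matrix Matrix.SpecialLinearGroup UpperHalfPlane

/-- `Γ₀(N)` as a subgroup of `GL₂(ℝ)` -/
abbrev G0 (N : ℕ) : Subgroup (GL (Fin 2) ℝ) :=
  (CongruenceSubgroup.Gamma0 N : Subgroup (GL (Fin 2) ℝ))

/-- `diag(1, ℓ)` -/
abbrev bp (ℓ : ℕ) : GL (Fin 2) ℝ := ModularForm.heckeMatrix ℓ 0

/-- `Γ₀(N) ∩ bp⁻¹ Γ₀(N) bp = Γ₀(N) ∩ Γ⁰(ℓ)` -/
abbrev ΔA (N ℓ : ℕ) : Subgroup (GL (Fin 2) ℝ) :=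
  G0 N ⊓ (G0 N).map (MulAut.conj (bp ℓ)⁻¹).toMonoidHom

/-- `Γ₀(N) ∩ bp Γ₀(N) bp⁻¹ = Γ₀(Nℓ)` -/
abbrev ΔB (N ℓ : ℕ) : Subgroup (GL (Fin 2) ℝ) :=
  G0 N ⊓ (G0 N).map (MulAut.conj (bp ℓ)).toMonoidHom

/-! ### integer matrices -/

theorem det_eq (g : SL(2, ℤ)) : g 0 0 * g 1 1 - g 0 1 * g 1 0 = 1 := by
  have := g.det_coe
  rwa [Matrix.det_fin_two] at this

/-- a matrix of `SL₂(ℤ)` from its entries -/
def mk (a b c d : ℤ) (h : a * d - b * c = 1) : SL(2, ℤ) :=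
  ⟨!![a, b; c, d], by rw [Matrix.det_fin_two_of]; exact h⟩

@[simp] theorem mk_00 (a b c d : ℤ) (h : a * d - b * c = 1) : (mk a b c d h) 0 0 = a := rfl
@[simp] theorem mk_01 (a b c d : ℤ) (h : a * d - b * c = 1) : (mk a b c d h) 0 1 = b := rfl
@[simp] theorem mk_10 (a b c d : ℤ) (h : a * d - b * c = 1) : (mk a b c d h) 1 0 = c := rfl
@[simp] theorem mk_11 (a b c d : ℤ) (h : a * d - b * c = 1) : (mk a b c d h) 1 1 = d := rfl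

theorem ext_entries {g h : SL(2, ℤ)} (h00 : g 0 0 = h 0 0) (h01 : g 0 1 = h 0 1)
    (h10 : g 1 0 = h 1 0) (h11 : g 1 1 = h 1 1) : g = h := by
  ext i j
  fin_cases i <;> fin_cases j <;> assumption

theorem mul_00 (g h : SL(2, ℤ)) : (g * h) 0 0 = g 0 0 * h 0 0 + g 0 1 * h 1 0 := by
  simp [Matrix.mul_apply, Fin.sum_univ_two]
theorem mul_01 (g h : SL(2, ℤ)) : (g * h) 0 1 = g 0 0 * h 0 1 + g 0 1 * h 1 1 := by
  simp [Matrix.mul_apply, Fin.sum_univ_two]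
theorem mul_10 (g h : SL(2, ℤ)) : (g * h) 1 0 = g 1 0 * h 0 0 + g 1 1 * h 1 0 := by
  simp [Matrix.mul_apply, Fin.sum_univ_two]
theorem mul_11 (g h : SL(2, ℤ)) : (g * h) 1 1 = g 1 0 * h 0 1 + g 1 1 * h 1 1 := by
  simp [Matrix.mul_apply, Fin.sum_univ_two]

theorem inv_00 (g : SL(2, ℤ)) : (g⁻¹) 0 0 = g 1 1 := by
  simp [Matrix.SpecialLinearGroup.coe_inv, Matrix.adjugate_fin_two]
theorem inv_01 (g : SL(2, ℤ)) : (g⁻¹) 0 1 = - g 0 1 := by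
  simp [Matrix.SpecialLinearGroup.coe_inv, Matrix.adjugate_fin_two]
theorem inv_10 (g : SL(2, ℤ)) : (g⁻¹) 1 0 = - g 1 0 := by
  simp [Matrix.SpecialLinearGroup.coe_inv, Matrix.adjugate_fin_two]
theorem inv_11 (g : SL(2, ℤ)) : (g⁻¹) 1 1 = g 0 0 := by
  simp [Matrix.SpecialLinearGroup.coe_inv, Matrix.adjugate_fin_two]

theorem mem_Gamma0_iff_dvd {N : ℕ} (g : SL(2, ℤ)) :
    g ∈ CongruenceSubgroup.Gamma0 N ↔ (N : ℤ) ∣ g 1 0 := by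
  rw [CongruenceSubgroup.Gamma0_mem, ZMod.intCast_zmod_eq_zero_iff_dvd]

/-- entries of `mapGL ℝ g` -/
theorem mapGL_apply (g : SL(2, ℤ)) (i j : Fin 2) :
    (mapGL ℝ g : GL (Fin 2) ℝ) i j = ((g i j : ℤ) : ℝ) := by
  simp [mapGL_coe_matrix]

theorem mem_G0_iff {N : ℕ} (g : SL(2, ℤ)) :
    (mapGL ℝ g : GL (Fin 2) ℝ) ∈ G0 N ↔ g ∈ CongruenceSubgroup.Gamma0 N :=
  Subgroup.mem_map_iff_mem mapGL_injective


/-! ### `GL₂(ℝ)` bookkeeping -/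

theorem GL_mul_apply (A B : GL (Fin 2) ℝ) (i j : Fin 2) :
    (A * B) i j = A i 0 * B 0 j + A i 1 * B 1 j := by
  simp [Matrix.mul_apply, Fin.sum_univ_two]

section bp

variable {ℓ : ℕ}

theorem bp_00 (hℓ0 : ℓ ≠ 0) : (bp ℓ) 0 0 = 1 := by simp [bp, ModularForm.val_heckeMatrix hℓ0]
theorem bp_01 (hℓ0 : ℓ ≠ 0) : (bp ℓ) 0 1 = 0 := by simp [bp, ModularForm.val_heckeMatrix hℓ0]
theorem bp_10 (hℓ0 : ℓ ≠ 0) : (bp ℓ) 1 0 = 0 := by simp [bp, ModularForm.val_heckeMatrix hℓ0]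
theorem bp_11 (hℓ0 : ℓ ≠ 0) : (bp ℓ) 1 1 = ℓ := by simp [bp, ModularForm.val_heckeMatrix hℓ0]

theorem hM_00 (hℓ0 : ℓ ≠ 0) (j : ℕ) : (ModularForm.heckeMatrix ℓ j) 0 0 = 1 := by
  simp [ModularForm.val_heckeMatrix hℓ0]
theorem hM_01 (hℓ0 : ℓ ≠ 0) (j : ℕ) : (ModularForm.heckeMatrix ℓ j) 0 1 = j := by
  simp [ModularForm.val_heckeMatrix hℓ0]
theorem hM_10 (hℓ0 : ℓ ≠ 0) (j : ℕ) : (ModularForm.heckeMatrix ℓ j) 1 0 = 0 := by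
  simp [ModularForm.val_heckeMatrix hℓ0]
theorem hM_11 (hℓ0 : ℓ ≠ 0) (j : ℕ) : (ModularForm.heckeMatrix ℓ j) 1 1 = ℓ := by
  simp [ModularForm.val_heckeMatrix hℓ0]

theorem hD_00 (hℓ0 : ℓ ≠ 0) : (ModularForm.heckeDiagMatrix ℓ) 0 0 = ℓ := by
  simp [ModularForm.val_heckeDiagMatrix hℓ0]
theorem hD_01 (hℓ0 : ℓ ≠ 0) : (ModularForm.heckeDiagMatrix ℓ) 0 1 = 0 := by
  simp [ModularForm.val_heckeDiagMatrix hℓ0]
theorem hD_10 (hℓ0 : ℓ ≠ 0) : (ModularForm.heckeDiagMatrix ℓ) 1 0 = 0 := by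
  simp [ModularForm.val_heckeDiagMatrix hℓ0]
theorem hD_11 (hℓ0 : ℓ ≠ 0) : (ModularForm.heckeDiagMatrix ℓ) 1 1 = 1 := by
  simp [ModularForm.val_heckeDiagMatrix hℓ0]

/-- the inverse of `bp` -/
def bpInv (ℓ : ℕ) (hℓ0 : ℓ ≠ 0) : GL (Fin 2) ℝ :=
  ModularForm.upperTriangularGL 1 0 ((ℓ : ℝ)⁻¹) (by
    rw [one_mul]; exact inv_ne_zero (by exact_mod_cast hℓ0))

theorem bpInv_00 (hℓ0 : ℓ ≠ 0) : (bpInv ℓ hℓ0) 0 0 = 1 := by simp [bpInv]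
theorem bpInv_01 (hℓ0 : ℓ ≠ 0) : (bpInv ℓ hℓ0) 0 1 = 0 := by simp [bpInv]
theorem bpInv_10 (hℓ0 : ℓ ≠ 0) : (bpInv ℓ hℓ0) 1 0 = 0 := by simp [bpInv]
theorem bpInv_11 (hℓ0 : ℓ ≠ 0) : (bpInv ℓ hℓ0) 1 1 = (ℓ : ℝ)⁻¹ := by simp [bpInv]

theorem bp_inv (hℓ0 : ℓ ≠ 0) : (bp ℓ)⁻¹ = bpInv ℓ hℓ0 := by
  have hℓ' : (ℓ : ℝ) ≠ 0 := by exact_mod_cast hℓ0
  apply inv_eq_of_mul_eq_one_right
  apply Matrix.GeneralLinearGroup.ext
  intro i j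
  fin_cases i <;> fin_cases j <;>
    simp [GL_mul_apply, bp_00 hℓ0, bp_01 hℓ0, bp_10 hℓ0, bp_11 hℓ0, bpInv_00 hℓ0, bpInv_01 hℓ0,
      bpInv_10 hℓ0, bpInv_11 hℓ0, hℓ']

end bp


theorem slash_two_scalar (u : ℝˣ) (hu : 0 < (u : ℝ)) (f : ℍ → ℂ) :
    f ∣[(2 : ℤ)] (GeneralLinearGroup.scalar (Fin 2) u) = f := by
  have hdet : ((GeneralLinearGroup.scalar (Fin 2) u).det : ℝ) = (u : ℝ) ^ 2 := by
    rw [GeneralLinearGroup.det_scalar]; simp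
  have hpos : 0 < ((GeneralLinearGroup.scalar (Fin 2) u).det : ℝ) := by
    rw [hdet]; positivity
  have hσ : UpperHalfPlane.σ (GeneralLinearGroup.scalar (Fin 2) u) = .refl ℝ ℂ := by
    rw [UpperHalfPlane.σ, if_pos hpos]
  ext τ
  rw [ModularForm.slash_apply, hσ, hdet, denom_scalar, glScalar_smul]
  have hu' : ((u : ℝ) : ℂ) ≠ 0 := by exact_mod_cast u.ne_zero
  simp only [ContinuousAlgEquiv.refl_apply]
  rw [abs_of_pos (by positivity)]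
  norm_num

theorem scalar_apply_00 (u : ℝˣ) : (GeneralLinearGroup.scalar (Fin 2) u) 0 0 = u := by
  simp [GeneralLinearGroup.coe_scalar]
theorem scalar_apply_01 (u : ℝˣ) : (GeneralLinearGroup.scalar (Fin 2) u) 0 1 = 0 := by
  simp [GeneralLinearGroup.coe_scalar]
theorem scalar_apply_10 (u : ℝˣ) : (GeneralLinearGroup.scalar (Fin 2) u) 1 0 = 0 := by
  simp [GeneralLinearGroup.coe_scalar]
theorem scalar_apply_11 (u : ℝˣ) : (GeneralLinearGroup.scalar (Fin 2) u) 1 1 = u := by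
  simp [GeneralLinearGroup.coe_scalar]

/-- if `scalar u * X = Y` with `u > 0` then slashing by `X` and `Y` in weight `2` agree -/
theorem slash_two_eq_of_scalar_mul_eq {u : ℝˣ} (hu : 0 < (u : ℝ)) {X Y : GL (Fin 2) ℝ}
    (h : GeneralLinearGroup.scalar (Fin 2) u * X = Y) (f : ℍ → ℂ) :
    f ∣[(2 : ℤ)] X = f ∣[(2 : ℤ)] Y := by
  rw [← h, SlashAction.slash_mul, slash_two_scalar u hu]

section conj
variable {G : Type*} [Group G]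
theorem conj_inv_eq_of_mul_eq {b x y : G} (h : x * b = b * y) : MulAut.conj b⁻¹ x = y := by
  rw [MulAut.conj_apply, inv_inv, mul_assoc, h, inv_mul_cancel_left]
theorem conj_eq_of_mul_eq {b x y : G} (h : b * x = y * b) : MulAut.conj b x = y := by
  rw [MulAut.conj_apply, h, mul_inv_cancel_right]
theorem mul_eq_of_conj_inv_eq {b x y : G} (h : MulAut.conj b⁻¹ x = y) : x * b = b * y := by
  rw [← h, MulAut.conj_apply, inv_inv]; group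
theorem mul_eq_of_conj_eq {b x y : G} (h : MulAut.conj b x = y) : b * x = y * b := by
  rw [← h, MulAut.conj_apply]; group
end conj

section Delta

variable {N ℓ : ℕ}

/-- membership in `ΔA`, sufficient condition -/
theorem mapGL_mem_ΔA (hℓ0 : ℓ ≠ 0) {s : SL(2, ℤ)} (hs : s ∈ CongruenceSubgroup.Gamma0 N)
    (h01 : (ℓ : ℤ) ∣ s 0 1) : (mapGL ℝ s : GL (Fin 2) ℝ) ∈ ΔA N ℓ := by
  refine ⟨(mem_G0_iff s).2 hs, ?_⟩
  obtain ⟨b', hb'⟩ := h01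
  have hdet := det_eq s
  refine ⟨mapGL ℝ (mk (s 0 0) b' (s 1 0 * ℓ) (s 1 1) (by rw [hb'] at hdet; linarith)),
    (mem_G0_iff _).2 ?_, ?_⟩
  · rw [mem_Gamma0_iff_dvd] at hs ⊢
    simpa using Dvd.dvd.mul_right hs _
  · change MulAut.conj (bp ℓ)⁻¹ _ = _
    apply conj_inv_eq_of_mul_eq
    apply Matrix.GeneralLinearGroup.ext
    intro i j
    fin_cases i <;> fin_cases j <;>
      simp [GL_mul_apply, bp_00 hℓ0, bp_01 hℓ0, bp_10 hℓ0, bp_11 hℓ0, mapGL_apply, hb']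
    all_goals ring

/-- membership in `ΔA`, necessary condition -/
theorem of_mapGL_mem_ΔA (hℓ0 : ℓ ≠ 0) {s : SL(2, ℤ)} (h : (mapGL ℝ s : GL (Fin 2) ℝ) ∈ ΔA N ℓ) :
    s ∈ CongruenceSubgroup.Gamma0 N ∧ (ℓ : ℤ) ∣ s 0 1 := by
  refine ⟨(mem_G0_iff s).1 h.1, ?_⟩
  obtain ⟨γ, hγ, hγs⟩ := h.2
  obtain ⟨t, -, rfl⟩ := hγ
  have h1 := mul_eq_of_conj_inv_eq hγs
  have h2 := congrArg (fun A : GL (Fin 2) ℝ => A 0 1) h1
  simp only [GL_mul_apply, bp_00 hℓ0, bp_01 hℓ0, bp_11 hℓ0, mapGL_apply] at h2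
  refine ⟨t 0 1, ?_⟩
  have : ((s 0 1 : ℤ) : ℝ) = ((ℓ * t 0 1 : ℤ) : ℝ) := by push_cast; linarith
  exact_mod_cast this

/-- membership in `ΔB`, sufficient condition -/
theorem mapGL_mem_ΔB (hℓ0 : ℓ ≠ 0) (hcop : IsCoprime (N : ℤ) (ℓ : ℤ)) {s : SL(2, ℤ)}
    (hs : s ∈ CongruenceSubgroup.Gamma0 N)
    (h10 : (ℓ : ℤ) ∣ s 1 0) : (mapGL ℝ s : GL (Fin 2) ℝ) ∈ ΔB N ℓ := by
  refine ⟨(mem_G0_iff s).2 hs, ?_⟩
  obtain ⟨c', hc'⟩ := h10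
  have hdet := det_eq s
  refine ⟨mapGL ℝ (mk (s 0 0) (s 0 1 * ℓ) c' (s 1 1) (by rw [hc'] at hdet; linarith)),
    (mem_G0_iff _).2 ?_, ?_⟩
  · rw [mem_Gamma0_iff_dvd] at hs ⊢
    rw [hc'] at hs
    simpa using hcop.dvd_of_dvd_mul_left hs
  · change MulAut.conj (bp ℓ) _ = _
    apply conj_eq_of_mul_eq
    apply Matrix.GeneralLinearGroup.ext
    intro i j
    fin_cases i <;> fin_cases j <;>
      simp [GL_mul_apply, bp_00 hℓ0, bp_01 hℓ0, bp_10 hℓ0, bp_11 hℓ0, mapGL_apply, hc']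
    all_goals ring

/-- membership in `ΔB`, necessary condition -/
theorem of_mapGL_mem_ΔB (hℓ0 : ℓ ≠ 0) {s : SL(2, ℤ)} (h : (mapGL ℝ s : GL (Fin 2) ℝ) ∈ ΔB N ℓ) :
    s ∈ CongruenceSubgroup.Gamma0 N ∧ (ℓ : ℤ) ∣ s 1 0 := by
  refine ⟨(mem_G0_iff s).1 h.1, ?_⟩
  obtain ⟨γ, hγ, hγs⟩ := h.2
  obtain ⟨t, -, rfl⟩ := hγ
  have h1 := mul_eq_of_conj_eq hγs
  have h2 := congrArg (fun A : GL (Fin 2) ℝ => A 1 0) h1
  simp only [GL_mul_apply, bp_00 hℓ0, bp_10 hℓ0, bp_11 hℓ0, mapGL_apply] at h2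
  refine ⟨t 1 0, ?_⟩
  have : ((s 1 0 : ℤ) : ℝ) = ((ℓ * t 1 0 : ℤ) : ℝ) := by push_cast; linarith
  exact_mod_cast this

end Delta


section reps

variable {N ℓ : ℕ} (hℓ : ℓ.Prime) (hℓN : ¬ ℓ ∣ N)

/-- Bezout coefficients: `ℓ * bezA - bezB * N = 1` -/
def bezA (ℓ N : ℕ) : ℤ := Int.gcdA ℓ N
/-- Bezout coefficients: `ℓ * bezA - bezB * N = 1` -/
def bezB (ℓ N : ℕ) : ℤ := - Int.gcdB ℓ N

include hℓ hℓN in
theorem bez : (ℓ : ℤ) * bezA ℓ N - bezB ℓ N * N = 1 := by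
  have h := Int.gcd_eq_gcd_ab ℓ N
  have hg : Int.gcd (ℓ : ℤ) (N : ℤ) = 1 := by
    rw [Int.gcd_natCast_natCast]
    exact (Nat.Prime.coprime_iff_not_dvd hℓ).2 hℓN
  rw [hg] at h
  simp only [bezA, bezB]
  push_cast at h
  linarith

include hℓ hℓN in
theorem not_dvd_bezB : ¬ (ℓ : ℤ) ∣ bezB ℓ N := by
  intro h
  have h1 : (ℓ : ℤ) ∣ 1 := by
    rw [← bez hℓ hℓN]
    exact dvd_sub (dvd_mul_right _ _) (Dvd.dvd.mul_right h _)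
  have := Int.eq_one_of_dvd_one (by positivity) h1
  have h2 := hℓ.one_lt
  omega

include hℓN in
theorem not_dvd_N : ¬ (ℓ : ℤ) ∣ (N : ℤ) := by
  rwa [Int.natCast_dvd_natCast]

include hℓ hℓN in
theorem isCoprime_N_ℓ : IsCoprime (N : ℤ) (ℓ : ℤ) := by
  refine ⟨- bezB ℓ N, bezA ℓ N, ?_⟩
  have := bez hℓ hℓN
  linarith

/-- representatives of `(Γ₀(N) ∩ Γ⁰(ℓ)) \ Γ₀(N)` in `SL₂(ℤ)` -/
def sA : Option (Fin ℓ) → SL(2, ℤ)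
  | none => mk (ℓ * bezA ℓ N) (bezB ℓ N) N 1 (by have := bez hℓ hℓN; linarith)
  | some j => mk 1 (j : ℕ) 0 1 (by ring)

/-- representatives of `Γ₀(Nℓ) \ Γ₀(N)` in `SL₂(ℤ)` -/
def sB : Option (Fin ℓ) → SL(2, ℤ)
  | none => 1
  | some j => mk (bezA ℓ N) (bezA ℓ N * (j : ℕ) + bezB ℓ N) N (N * (j : ℕ) + ℓ)
      (by have := bez hℓ hℓN; linarith)

/-- representatives of `ΔA \ Γ₀(N)` -/
def rA (i : Option (Fin ℓ)) : GL (Fin 2) ℝ := mapGL ℝ (sA hℓ hℓN i)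

/-- representatives of `ΔB \ Γ₀(N)` -/
def rB (i : Option (Fin ℓ)) : GL (Fin 2) ℝ := mapGL ℝ (sB hℓ hℓN i)

theorem sA_mem (i : Option (Fin ℓ)) : sA hℓ hℓN i ∈ CongruenceSubgroup.Gamma0 N := by
  rw [mem_Gamma0_iff_dvd]
  cases i <;> simp [sA]

theorem sB_mem (i : Option (Fin ℓ)) : sB hℓ hℓN i ∈ CongruenceSubgroup.Gamma0 N := by
  cases i with
  | none => exact Subgroup.one_mem _
  | some j => rw [mem_Gamma0_iff_dvd]; simp [sB]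

theorem rA_mem (i : Option (Fin ℓ)) : rA hℓ hℓN i ∈ G0 N := (mem_G0_iff _).2 (sA_mem hℓ hℓN i)

theorem rB_mem (i : Option (Fin ℓ)) : rB hℓ hℓN i ∈ G0 N := (mem_G0_iff _).2 (sB_mem hℓ hℓN i)


/-! ### covering -/

include hℓ in
theorem exists_fin_mul_eq {a b : ℤ} (ha : ¬ (ℓ : ℤ) ∣ a) :
    ∃ j : Fin ℓ, (ℓ : ℤ) ∣ a * ((j : ℕ) : ℤ) - b := by
  have : Fact ℓ.Prime := ⟨hℓ⟩
  have ha' : ((a : ℤ) : ZMod ℓ) ≠ 0 := by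
    rwa [Ne, ZMod.intCast_zmod_eq_zero_iff_dvd]
  refine ⟨⟨ZMod.val ((b : ZMod ℓ) * (a : ZMod ℓ)⁻¹), ZMod.val_lt _⟩, ?_⟩
  rw [← ZMod.intCast_zmod_eq_zero_iff_dvd]
  push_cast
  rw [ZMod.natCast_zmod_val]
  field_simp
  ring

theorem rA_cov : ∀ g ∈ G0 N, ∃ i, ∃ h ∈ ΔA N ℓ, g = h * rA hℓ hℓN i := by
  rintro g ⟨s, hs, rfl⟩
  have hℓ0 : ℓ ≠ 0 := hℓ.ne_zero
  have key : ∀ i, (ℓ : ℤ) ∣ (s * (sA hℓ hℓN i)⁻¹) 0 1 →
      ∃ h ∈ ΔA N ℓ, (mapGL ℝ s : GL (Fin 2) ℝ) = h * rA hℓ hℓN i := by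
    intro i hi
    refine ⟨mapGL ℝ (s * (sA hℓ hℓN i)⁻¹), mapGL_mem_ΔA hℓ0
      (Subgroup.mul_mem _ hs (Subgroup.inv_mem _ (sA_mem hℓ hℓN i))) hi, ?_⟩
    rw [rA, ← map_mul, inv_mul_cancel_right]
  by_cases ha : (ℓ : ℤ) ∣ s 0 0
  · refine ⟨none, key none ?_⟩
    rw [mul_01, inv_01, inv_11]
    simp only [sA, mk_00, mk_01]
    obtain ⟨t, ht⟩ := ha
    exact ⟨-t * bezB ℓ N + s 0 1 * bezA ℓ N, by rw [ht]; ring⟩
  · obtain ⟨j, hj⟩ := exists_fin_mul_eq hℓ (b := s 0 1) ha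
    refine ⟨some j, key (some j) ?_⟩
    rw [mul_01, inv_01, inv_11]
    simp only [sA, mk_00, mk_01]
    have : s 0 0 * -((j : ℕ) : ℤ) + s 0 1 * 1 = -(s 0 0 * ((j : ℕ) : ℤ) - s 0 1) := by ring
    rw [this]
    exact (dvd_neg).2 hj

theorem rB_cov : ∀ g ∈ G0 N, ∃ i, ∃ h ∈ ΔB N ℓ, g = h * rB hℓ hℓN i := by
  rintro g ⟨s, hs, rfl⟩
  have hℓ0 : ℓ ≠ 0 := hℓ.ne_zero
  have key : ∀ i, (ℓ : ℤ) ∣ (s * (sB hℓ hℓN i)⁻¹) 1 0 →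
      ∃ h ∈ ΔB N ℓ, (mapGL ℝ s : GL (Fin 2) ℝ) = h * rB hℓ hℓN i := by
    intro i hi
    refine ⟨mapGL ℝ (s * (sB hℓ hℓN i)⁻¹), mapGL_mem_ΔB hℓ0 (isCoprime_N_ℓ hℓ hℓN)
      (Subgroup.mul_mem _ hs (Subgroup.inv_mem _ (sB_mem hℓ hℓN i))) hi, ?_⟩
    rw [rB, ← map_mul, inv_mul_cancel_right]
  by_cases hc : (ℓ : ℤ) ∣ s 1 0
  · refine ⟨none, key none ?_⟩
    simpa [sB] using hc
  · obtain ⟨j, hj⟩ := exists_fin_mul_eq hℓ (b := s 1 1) hc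
    refine ⟨some j, key (some j) ?_⟩
    rw [mul_10, inv_00, inv_10]
    simp only [sB, mk_10, mk_11]
    obtain ⟨t, ht⟩ := hj
    exact ⟨N * t + s 1 0, by linear_combination (N : ℤ) * ht⟩


/-! ### injectivity -/

omit hℓ hℓN in
theorem exists_sign_of_forall_smul_eq (m : SL(2, ℤ))
    (hm : ∀ x : ℍ, (mapGL ℝ m : GL (Fin 2) ℝ) • x = x) :
    ∃ e : ℤ, e * e = 1 ∧ m 0 0 = e ∧ m 0 1 = 0 ∧ m 1 0 = 0 ∧ m 1 1 = e := by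
  rw [UpperHalfPlane.forall_smul_eq_self_iff_mem_center,
    Matrix.GeneralLinearGroup.mem_center_iff_val_mem_range_scalar] at hm
  obtain ⟨r, hr⟩ := hm
  have h00 : (Matrix.scalar (Fin 2) r) 0 0 = (mapGL ℝ m : GL (Fin 2) ℝ) 0 0 :=
    congrFun (congrFun hr 0) 0
  have h01 : (Matrix.scalar (Fin 2) r) 0 1 = (mapGL ℝ m : GL (Fin 2) ℝ) 0 1 :=
    congrFun (congrFun hr 0) 1
  have h10 : (Matrix.scalar (Fin 2) r) 1 0 = (mapGL ℝ m : GL (Fin 2) ℝ) 1 0 :=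
    congrFun (congrFun hr 1) 0
  have h11 : (Matrix.scalar (Fin 2) r) 1 1 = (mapGL ℝ m : GL (Fin 2) ℝ) 1 1 :=
    congrFun (congrFun hr 1) 1
  rw [mapGL_apply] at h00 h01 h10 h11
  simp only [Matrix.scalar_apply, Matrix.diagonal_apply_eq] at h00 h11
  rw [Matrix.scalar_apply, Matrix.diagonal_apply_ne _ (by decide)] at h01 h10
  have e01 : m 0 1 = 0 := by exact_mod_cast h01.symm
  have e10 : m 1 0 = 0 := by exact_mod_cast h10.symm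
  have e11 : m 1 1 = m 0 0 := by
    have : ((m 1 1 : ℤ) : ℝ) = ((m 0 0 : ℤ) : ℝ) := by rw [← h00, ← h11]
    exact_mod_cast this
  refine ⟨m 0 0, ?_, rfl, e01, e10, e11⟩
  have := det_eq m
  rw [e01, e11] at this
  linarith

omit hℓ hℓN in
theorem key_cross {s P Q : SL(2, ℤ)}
    (h : ∀ x : ℍ, ((mapGL ℝ s : GL (Fin 2) ℝ) * mapGL ℝ P) • x = (mapGL ℝ Q : GL (Fin 2) ℝ) • x) :
    ∃ e : ℤ, e * e = 1 ∧ Q 0 0 * P 0 1 - Q 0 1 * P 0 0 = - e * s 0 1 ∧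
      Q 1 0 * P 1 1 - Q 1 1 * P 1 0 = e * s 1 0 := by
  obtain ⟨e, he, m00, m01, m10, m11⟩ := exists_sign_of_forall_smul_eq (Q⁻¹ * (s * P)) (by
    intro x
    rw [map_mul, map_mul, map_inv, mul_smul, h x, inv_smul_smul])
  have hsP : s * P = Q * (Q⁻¹ * (s * P)) := by group
  have E0 := mul_00 Q (Q⁻¹ * (s * P))
  have E1 := mul_01 Q (Q⁻¹ * (s * P))
  have E2 := mul_10 Q (Q⁻¹ * (s * P))
  have E3 := mul_11 Q (Q⁻¹ * (s * P))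
  simp only [← hsP, m00, m01, m10, m11] at E0 E1 E2 E3
  rw [mul_00] at E0
  rw [mul_01] at E1
  rw [mul_10] at E2
  rw [mul_11] at E3
  have dP := det_eq P
  refine ⟨e, he, ?_, ?_⟩
  · linear_combination (-(Q 0 0 * P 0 1 - Q 0 1 * P 0 0)) * he - e * s 0 1 * dP
      - e * P 0 1 * E0 + e * P 0 0 * E1
  · linear_combination (-(Q 1 0 * P 1 1 - Q 1 1 * P 1 0)) * he + e * s 1 0 * dP
      - e * P 1 1 * E2 + e * P 1 0 * E3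

omit hℓ hℓN in
theorem dvd_of_dvd_sign_mul {e x : ℤ} (he : e * e = 1) {d : ℤ} (h : d ∣ e * x) : d ∣ x := by
  have : x = e * (e * x) := by rw [← mul_assoc, he, one_mul]
  rw [this]
  exact Dvd.dvd.mul_left h _

omit hℓ hℓN in
theorem fin_eq_of_dvd_sub {i j : Fin ℓ} (h : (ℓ : ℤ) ∣ ((i : ℕ) : ℤ) - ((j : ℕ) : ℤ)) : i = j := by
  have h0 : ((i : ℕ) : ℤ) - ((j : ℕ) : ℤ) = 0 := by
    apply Int.eq_zero_of_abs_lt_dvd h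
    have hi := i.2
    have hj := j.2
    rw [abs_lt]
    constructor <;> omega
  apply Fin.ext
  omega

theorem rA_inj : ∀ i j, ∀ h ∈ ΔA N ℓ,
    (∀ x : ℍ, (h * rA hℓ hℓN i) • x = rA hℓ hℓN j • x) → i = j := by
  intro i j h hh hx
  have hℓ0 : ℓ ≠ 0 := hℓ.ne_zero
  obtain ⟨s, -, rfl⟩ := hh.1
  obtain ⟨-, hs01⟩ := of_mapGL_mem_ΔA hℓ0 hh
  obtain ⟨e, he, hcross, -⟩ := key_cross (s := s) (P := sA hℓ hℓN i) (Q := sA hℓ hℓN j) hx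
  have hdvd : (ℓ : ℤ) ∣ sA hℓ hℓN j 0 0 * sA hℓ hℓN i 0 1 - sA hℓ hℓN j 0 1 * sA hℓ hℓN i 0 0 := by
    rw [hcross]
    exact Dvd.dvd.mul_left hs01 _
  rcases i with _ | i <;> rcases j with _ | j
  · rfl
  · exfalso
    simp only [sA, mk_00, mk_01] at hdvd
    apply not_dvd_bezB hℓ hℓN
    have : bezB ℓ N = (1 * bezB ℓ N - ((j : ℕ) : ℤ) * (ℓ * bezA ℓ N)) + ℓ * (((j : ℕ) : ℤ) * bezA ℓ N) := by
      ring
    rw [this]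
    exact dvd_add hdvd (dvd_mul_right _ _)
  · exfalso
    simp only [sA, mk_00, mk_01] at hdvd
    apply not_dvd_bezB hℓ hℓN
    have : bezB ℓ N = -((ℓ * bezA ℓ N) * ((i : ℕ) : ℤ) - bezB ℓ N * 1) + ℓ * (((i : ℕ) : ℤ) * bezA ℓ N) := by
      ring
    rw [this]
    exact dvd_add ((dvd_neg).2 hdvd) (dvd_mul_right _ _)
  · simp only [sA, mk_00, mk_01] at hdvd
    congr 1
    apply fin_eq_of_dvd_sub
    have : ((i : ℕ) : ℤ) - ((j : ℕ) : ℤ) = 1 * ((i : ℕ) : ℤ) - ((j : ℕ) : ℤ) * 1 := by ring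
    rw [this]
    exact hdvd

theorem rB_inj : ∀ i j, ∀ h ∈ ΔB N ℓ,
    (∀ x : ℍ, (h * rB hℓ hℓN i) • x = rB hℓ hℓN j • x) → i = j := by
  intro i j h hh hx
  have hℓ0 : ℓ ≠ 0 := hℓ.ne_zero
  obtain ⟨s, -, rfl⟩ := hh.1
  obtain ⟨-, hs10⟩ := of_mapGL_mem_ΔB hℓ0 hh
  obtain ⟨e, he, -, hcross⟩ := key_cross (s := s) (P := sB hℓ hℓN i) (Q := sB hℓ hℓN j) hx
  have hdvd : (ℓ : ℤ) ∣ sB hℓ hℓN j 1 0 * sB hℓ hℓN i 1 1 - sB hℓ hℓN j 1 1 * sB hℓ hℓN i 1 0 := by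
    rw [hcross]
    exact Dvd.dvd.mul_left hs10 _
  have hcop : IsCoprime (ℓ : ℤ) (N : ℤ) := (isCoprime_N_ℓ hℓ hℓN).symm
  rcases i with _ | i <;> rcases j with _ | j
  · rfl
  · exfalso
    simp [sB] at hdvd
    exact not_dvd_N hℓN hdvd
  · exfalso
    simp [sB] at hdvd
    exact not_dvd_N hℓN hdvd
  · simp only [sB, mk_10, mk_11] at hdvd
    congr 1
    apply fin_eq_of_dvd_sub
    have h1 : (ℓ : ℤ) ∣ (N : ℤ) * ((N : ℤ) * (((i : ℕ) : ℤ) - ((j : ℕ) : ℤ))) := by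
      have : (N : ℤ) * ((N : ℤ) * (((i : ℕ) : ℤ) - ((j : ℕ) : ℤ)))
          = N * (N * ((i : ℕ) : ℤ) + ℓ) - (N * ((j : ℕ) : ℤ) + ℓ) * N := by ring
      rw [this]
      exact hdvd
    exact hcop.dvd_of_dvd_mul_left (hcop.dvd_of_dvd_mul_left h1)


/-! ### the Hecke operator as a sum over the representatives -/

theorem bp_mul_rA_some (j : Fin ℓ) :
    bp ℓ * rA hℓ hℓN (some j) = ModularForm.heckeMatrix ℓ j := by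
  have hℓ0 : ℓ ≠ 0 := hℓ.ne_zero
  apply Matrix.GeneralLinearGroup.ext
  intro a b
  fin_cases a <;> fin_cases b <;>
    simp [GL_mul_apply, bp_00 hℓ0, bp_01 hℓ0, bp_10 hℓ0, bp_11 hℓ0, hM_00 hℓ0, hM_01 hℓ0,
      hM_10 hℓ0, hM_11 hℓ0, rA, sA, mapGL_apply]

/-- the auxiliary element `[a' b; N ℓ]` of `Γ₀(N)` -/
def sU : SL(2, ℤ) := mk (bezA ℓ N) (bezB ℓ N) N ℓ (by have := bez hℓ hℓN; linarith)

theorem sU_mem : sU hℓ hℓN ∈ CongruenceSubgroup.Gamma0 N := by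
  rw [mem_Gamma0_iff_dvd]
  simp [sU]

theorem bp_mul_rA_none :
    bp ℓ * rA hℓ hℓN none = mapGL ℝ (sU hℓ hℓN) * ModularForm.heckeDiagMatrix ℓ := by
  have hℓ0 : ℓ ≠ 0 := hℓ.ne_zero
  apply Matrix.GeneralLinearGroup.ext
  intro a b
  fin_cases a <;> fin_cases b <;>
    simp [GL_mul_apply, bp_00 hℓ0, bp_01 hℓ0, bp_10 hℓ0, bp_11 hℓ0, hD_00 hℓ0, hD_01 hℓ0,
      hD_10 hℓ0, hD_11 hℓ0, rA, sA, sU, mapGL_apply]
  all_goals ring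

theorem heckeT_eq_sum_A (f : ℍ → ℂ) (hf : ∀ γ ∈ G0 N, f ∣[(2 : ℤ)] γ = f) :
    ModularForm.heckeT 2 ℓ f = ∑ i, f ∣[(2 : ℤ)] (bp ℓ * rA hℓ hℓN i) := by
  rw [Fintype.sum_option, ModularForm.heckeT_def, add_comm]
  congr 1
  · rw [bp_mul_rA_none, SlashAction.slash_mul, hf _ ((mem_G0_iff _).2 (sU_mem hℓ hℓN))]
  · rw [Finset.sum_range]
    refine Finset.sum_congr rfl fun j _ => ?_
    rw [bp_mul_rA_some]

theorem scalar_mul_bpInv_mul_rB_none :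
    GeneralLinearGroup.scalar (Fin 2) (Units.mk0 (ℓ : ℝ) (by exact_mod_cast hℓ.ne_zero)) *
      ((bp ℓ)⁻¹ * rB hℓ hℓN none) = ModularForm.heckeDiagMatrix ℓ := by
  have hℓ0 : ℓ ≠ 0 := hℓ.ne_zero
  have hℓ' : (ℓ : ℝ) ≠ 0 := by exact_mod_cast hℓ0
  rw [bp_inv hℓ0]
  apply Matrix.GeneralLinearGroup.ext
  intro a b
  fin_cases a <;> fin_cases b <;>
    simp [GL_mul_apply, bpInv_00 hℓ0, bpInv_01 hℓ0, bpInv_10 hℓ0, bpInv_11 hℓ0, hD_00 hℓ0,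
      hD_01 hℓ0, hD_10 hℓ0, hD_11 hℓ0, rB, sB, scalar_apply_00, scalar_apply_01,
      scalar_apply_10, scalar_apply_11, hℓ']

theorem scalar_mul_bpInv_mul_rB_some (j : Fin ℓ) :
    GeneralLinearGroup.scalar (Fin 2) (Units.mk0 (ℓ : ℝ) (by exact_mod_cast hℓ.ne_zero)) *
      ((bp ℓ)⁻¹ * rB hℓ hℓN (some j)) =
      mapGL ℝ (sA hℓ hℓN none) * ModularForm.heckeMatrix ℓ j := by
  have hℓ0 : ℓ ≠ 0 := hℓ.ne_zero
  have hℓ' : (ℓ : ℝ) ≠ 0 := by exact_mod_cast hℓ0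
  rw [bp_inv hℓ0]
  apply Matrix.GeneralLinearGroup.ext
  intro a b
  fin_cases a <;> fin_cases b <;>
    simp [GL_mul_apply, bpInv_00 hℓ0, bpInv_01 hℓ0, bpInv_10 hℓ0, bpInv_11 hℓ0, hM_00 hℓ0,
      hM_01 hℓ0, hM_10 hℓ0, hM_11 hℓ0, rB, sB, sA, mapGL_apply, scalar_apply_00, scalar_apply_01,
      scalar_apply_10, scalar_apply_11]
  all_goals (field_simp; try ring)

theorem heckeT_eq_sum_B (g : ℍ → ℂ) (hg : ∀ γ ∈ G0 N, g ∣[(2 : ℤ)] γ = g) :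
    ModularForm.heckeT 2 ℓ g = ∑ i, g ∣[(2 : ℤ)] ((bp ℓ)⁻¹ * rB hℓ hℓN i) := by
  have hpos : 0 < ((Units.mk0 (ℓ : ℝ) (by exact_mod_cast hℓ.ne_zero) : ℝˣ) : ℝ) := by
    simpa using hℓ.pos
  rw [Fintype.sum_option, ModularForm.heckeT_def, add_comm]
  congr 1
  · rw [slash_two_eq_of_scalar_mul_eq hpos (scalar_mul_bpInv_mul_rB_none hℓ hℓN)]
  · rw [Finset.sum_range]
    refine Finset.sum_congr rfl fun j _ => ?_
    rw [slash_two_eq_of_scalar_mul_eq hpos (scalar_mul_bpInv_mul_rB_some hℓ hℓN j),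
      SlashAction.slash_mul, hg _ ((mem_G0_iff _).2 (sA_mem hℓ hℓN none))]

end reps

end Fermat.Agent.S33.Pet.HeckeCosets
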