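/-
S33 / (G1) Petersson block, file 1 (generic, Mathlib only).

Fundamental domains for a NON-FAITHFUL action: we pass to the image `img Δ` of a subgroup
`Δ ≤ K` in `Equiv.Perm α`, which acts faithfully, and use Mathlib's `IsFundamentalDomain` there.
Toolkit: criterion `isFD_of`, independence of the domain `IsFD.setIntegral_eq`, conjugation
`IsFD.conj`, finite-index subgroups `IsFD.of_reps`, and the unfolding `IsFD.setIntegral_iUnion`.
-/
import Mathlib

set_option autoImplicit false

open MeasureTheory Set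
open scoped Pointwise

namespace Fermat.Agent.S33.Pet.Img

variable {K α : Type*} [Group K] [MulAction K α]

/-- The image of a subgroup of `K` in the permutation group of `α` (it acts faithfully). -/
def img (Δ : Subgroup K) : Subgroup (Equiv.Perm α) := Δ.map (MulAction.toPermHom K α)

theorem mem_img {Δ : Subgroup K} {e : Equiv.Perm α} :
    e ∈ img (α := α) Δ ↔ ∃ g ∈ Δ, MulAction.toPermHom K α g = e := Subgroup.mem_map

theorem toPerm_mem_img {Δ : Subgroup K} {g : K} (hg : g ∈ Δ) :
    MulAction.toPermHom K α g ∈ img (α := α) Δ := Subgroup.mem_map_of_mem _ hg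

theorem img_mono {Δ Δ' : Subgroup K} (h : Δ' ≤ Δ) : img (α := α) Δ' ≤ img Δ :=
  Subgroup.map_mono h

theorem img_smul (Δ : Subgroup K) (e : img (α := α) Δ) (x : α) :
    e • x = (e : Equiv.Perm α) x := rfl

/-- the element of `img Δ` attached to `g ∈ Δ` -/
def toImg (Δ : Subgroup K) (g : K) (hg : g ∈ Δ) : img (α := α) Δ :=
  ⟨MulAction.toPermHom K α g, toPerm_mem_img hg⟩

@[simp] theorem toImg_smul (Δ : Subgroup K) (g : K) (hg : g ∈ Δ) (x : α) :
    toImg (α := α) Δ g hg • x = g • x := rfl

theorem exists_eq_toImg (Δ : Subgroup K) (e : img (α := α) Δ) :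
    ∃ (g : K) (hg : g ∈ Δ), e = toImg Δ g hg := by
  obtain ⟨g, hg, h⟩ := mem_img.1 e.2
  exact ⟨g, hg, Subtype.ext h.symm⟩

theorem toImg_smul_set (Δ : Subgroup K) (g : K) (hg : g ∈ Δ) (s : Set α) :
    toImg (α := α) Δ g hg • s = g • s := by
  ext x
  simp only [mem_smul_set]
  constructor
  · rintro ⟨y, hy, rfl⟩; exact ⟨y, hy, rfl⟩
  · rintro ⟨y, hy, rfl⟩; exact ⟨y, hy, rfl⟩

theorem toImg_eq_one_iff (Δ : Subgroup K) (g : K) (hg : g ∈ Δ) :
    toImg (α := α) Δ g hg = 1 ↔ ∀ x : α, g • x = x := by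
  constructor
  · intro h x
    have := congrArg (fun e : img (α := α) Δ => e • x) h
    simpa only [toImg_smul, one_smul] using this
  · intro h
    apply Subtype.ext
    apply Equiv.ext
    intro x
    exact h x

instance instCountableImg (Δ : Subgroup K) [Countable Δ] : Countable (img (α := α) Δ) := by
  have hsurj : Function.Surjective
      (fun g : Δ => toImg (α := α) Δ g.1 g.2) := by
    intro e
    obtain ⟨g, hg, h⟩ := exists_eq_toImg Δ e
    exact ⟨⟨g, hg⟩, h.symm⟩
  exact hsurj.countable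

section Measure

variable [MeasurableSpace α] [MeasurableConstSMul K α]

instance instMeasurableConstSMulImg (Δ : Subgroup K) :
    MeasurableConstSMul (img (α := α) Δ) α where
  measurable_const_smul e := by
    obtain ⟨g, hg, rfl⟩ := exists_eq_toImg Δ e
    exact measurable_const_smul g

variable (μ : Measure α) [SMulInvariantMeasure K α μ]

instance instSMulInvariantMeasureImg (Δ : Subgroup K) :
    SMulInvariantMeasure (img (α := α) Δ) α μ where
  measure_preimage_smul e s hs := by
    obtain ⟨g, hg, rfl⟩ := exists_eq_toImg Δ e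
    exact measure_preimage_smul μ g s

/-- `s` is a fundamental domain for `Δ` acting (possibly non-faithfully) on `α`. -/
def IsFD (Δ : Subgroup K) (s : Set α) : Prop := IsFundamentalDomain (img (α := α) Δ) s μ

variable {μ}

/-- Criterion: a.e. covering plus a.e. disjointness of `g • s` and `s` for the `g ∈ Δ` acting
non-trivially. -/
theorem isFD_of {Δ : Subgroup K} {s : Set α} (hs : NullMeasurableSet s μ)
    (hcov : ∀ᵐ x ∂μ, ∃ g ∈ Δ, g • x ∈ s)
    (hdisj : ∀ g ∈ Δ, (∃ x : α, g • x ≠ x) → AEDisjoint μ (g • s) s) :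
    IsFD μ Δ s := by
  refine IsFundamentalDomain.mk'' hs ?_ ?_ ?_
  · filter_upwards [hcov] with x hx
    obtain ⟨g, hg, hgx⟩ := hx
    exact ⟨toImg Δ g hg, by rw [toImg_smul]; exact hgx⟩
  · intro e he
    obtain ⟨g, hg, rfl⟩ := exists_eq_toImg Δ e
    rw [toImg_smul_set]
    apply hdisj g hg
    by_contra hcon
    exact he ((toImg_eq_one_iff Δ g hg).2 fun x => by
      by_contra hx
      exact hcon ⟨x, hx⟩)
  · intro e
    exact (measurePreserving_smul e μ).quasiMeasurePreserving

omit [MeasurableConstSMul K α] [SMulInvariantMeasure K α μ] in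
theorem IsFD.nullMeasurableSet {Δ : Subgroup K} {s : Set α} (h : IsFD μ Δ s) :
    NullMeasurableSet s μ := IsFundamentalDomain.nullMeasurableSet h

/-- Independence of the fundamental domain. -/
theorem IsFD.setIntegral_eq {E : Type*} [NormedAddCommGroup E] [NormedSpace ℝ E]
    {Δ : Subgroup K} [Countable Δ] {s t : Set α}
    (hs : IsFD μ Δ s) (ht : IsFD μ Δ t) {f : α → E} (hf : ∀ g ∈ Δ, ∀ x, f (g • x) = f x) :
    ∫ x in s, f x ∂μ = ∫ x in t, f x ∂μ := by
  refine IsFundamentalDomain.setIntegral_eq hs ht ?_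
  intro e x
  obtain ⟨g, hg, rfl⟩ := exists_eq_toImg Δ e
  rw [toImg_smul]; exact hf g hg x

theorem IsFD.integrableOn_iff {E : Type*} [NormedAddCommGroup E]
    {Δ : Subgroup K} [Countable Δ] {s t : Set α}
    (hs : IsFD μ Δ s) (ht : IsFD μ Δ t) {f : α → E} (hf : ∀ g ∈ Δ, ∀ x, f (g • x) = f x) :
    IntegrableOn f s μ ↔ IntegrableOn f t μ := by
  refine IsFundamentalDomain.integrableOn_iff hs ht ?_
  intro e x
  obtain ⟨g, hg, rfl⟩ := exists_eq_toImg Δ e
  rw [toImg_smul]; exact hf g hg x

theorem IsFD.measure_eq {Δ : Subgroup K} [Countable Δ] {s t : Set α}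
    (hs : IsFD μ Δ s) (ht : IsFD μ Δ t) : μ s = μ t :=
  IsFundamentalDomain.measure_eq hs ht

end Measure

end Fermat.Agent.S33.Pet.Img
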