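/-
S33 / (G1) Petersson block, file 2 (generic, Mathlib only).

Fundamental domains for non-faithful actions, continued: extraction of the two properties,
conjugation, finite-index subgroups (coset representatives) and unfolding.
-/
import Fermat.Agent.S33.Pet.Img

set_option autoImplicit false

open MeasureTheory Set Function
open scoped Pointwise

namespace Fermat.Agent.S33.Pet.Img

variable {K α : Type*} [Group K] [MulAction K α] [MeasurableSpace α] [MeasurableConstSMul K α]
  {μ : Measure α} [SMulInvariantMeasure K α μ]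

omit [MeasurableConstSMul K α] [SMulInvariantMeasure K α μ] in
theorem IsFD.ae_covers {Δ : Subgroup K} {s : Set α} (h : IsFD μ Δ s) :
    ∀ᵐ x ∂μ, ∃ g ∈ Δ, g • x ∈ s := by
  filter_upwards [IsFundamentalDomain.ae_covers h] with x hx
  obtain ⟨e, he⟩ := hx
  obtain ⟨g, hg, rfl⟩ := exists_eq_toImg Δ e
  exact ⟨g, hg, by rw [toImg_smul] at he; exact he⟩

omit [MeasurableConstSMul K α] [SMulInvariantMeasure K α μ] in
theorem IsFD.aedisjoint {Δ : Subgroup K} {s : Set α} (h : IsFD μ Δ s) {g : K} (hg : g ∈ Δ)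
    (hne : ∃ x : α, g • x ≠ x) : AEDisjoint μ (g • s) s := by
  have hne' : toImg (α := α) Δ g hg ≠ 1 := by
    intro h1
    obtain ⟨x, hx⟩ := hne
    exact hx ((toImg_eq_one_iff Δ g hg).1 h1 x)
  have := IsFundamentalDomain.aedisjoint h hne'
  simp only [Function.onFun, toImg_smul_set, one_smul] at this
  exact this

omit [MeasurableConstSMul K α] in
theorem aedisjoint_smul_of_aedisjoint {s t : Set α} (a : K) (h : AEDisjoint μ s t) :
    AEDisjoint μ (a • s) (a • t) := by
  unfold AEDisjoint at h ⊢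
  rw [← smul_set_inter, measure_smul]
  exact h

/-- Conjugation: `a • s` is a fundamental domain for `a Δ a⁻¹`. -/
theorem IsFD.conj {Δ : Subgroup K} {s : Set α} (h : IsFD μ Δ s) (a : K) :
    IsFD μ (Δ.map (MulAut.conj a).toMonoidHom) (a • s) := by
  refine isFD_of (h.nullMeasurableSet.smul a) ?_ ?_
  · have hqmp : Measure.QuasiMeasurePreserving (fun x : α => a⁻¹ • x) μ μ :=
      (measurePreserving_smul a⁻¹ μ).quasiMeasurePreserving
    have := hqmp.ae h.ae_covers
    filter_upwards [this] with x hx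
    obtain ⟨g, hg, hgx⟩ := hx
    refine ⟨a * g * a⁻¹, ?_, ?_⟩
    · exact Subgroup.mem_map.2 ⟨g, hg, by simp [MulAut.conj_apply]⟩
    · rw [mul_smul, mul_smul]
      exact smul_mem_smul_set hgx
  · rintro g' hg' ⟨x, hx⟩
    obtain ⟨g, hg, rfl⟩ := Subgroup.mem_map.1 hg'
    have hne : ∃ y : α, g • y ≠ y := by
      refine ⟨a⁻¹ • x, fun hfix => hx ?_⟩
      simp only [MulEquiv.toMonoidHom_eq_coe, MonoidHom.coe_coe, MulAut.conj_apply]
      rw [mul_smul, mul_smul, hfix, smul_inv_smul]
    have h1 := aedisjoint_smul_of_aedisjoint (μ := μ) a (h.aedisjoint hg hne)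
    have h2 : (MulAut.conj a).toMonoidHom g • a • s = a • g • s := by
      simp only [MulEquiv.toMonoidHom_eq_coe, MonoidHom.coe_coe, MulAut.conj_apply]
      rw [← mul_smul, ← mul_smul, inv_mul_cancel_right]
    rw [h2]
    exact h1

/-- Finite-index subgroups: if `Δ = ⊔ᵢ Δ' rᵢ` (right cosets, modulo elements acting trivially),
then `⋃ᵢ rᵢ • s` is a fundamental domain for `Δ'`. -/
theorem IsFD.of_reps {Δ Δ' : Subgroup K} {s : Set α} (h : IsFD μ Δ s) (hle : Δ' ≤ Δ)
    {ι : Type*} [Countable ι] (r : ι → K) (hr_mem : ∀ i, r i ∈ Δ)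
    (hr_cov : ∀ g ∈ Δ, ∃ i, ∃ h' ∈ Δ', ∀ x : α, g • x = (h' * r i) • x)
    (hr_inj : ∀ i j, ∀ h' ∈ Δ', (∀ x : α, (h' * r i) • x = r j • x) → i = j) :
    IsFD μ Δ' (⋃ i, r i • s) := by
  refine isFD_of (NullMeasurableSet.iUnion fun i => h.nullMeasurableSet.smul (r i)) ?_ ?_
  · filter_upwards [h.ae_covers] with x hx
    obtain ⟨g, hg, hgx⟩ := hx
    obtain ⟨i, h', hh', hact⟩ := hr_cov g⁻¹ (Δ.inv_mem hg)
    refine ⟨h'⁻¹, Δ'.inv_mem hh', mem_iUnion.2 ⟨i, ?_⟩⟩
    have hx' : x = (h' * r i) • (g • x) := by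
      rw [← hact, inv_smul_smul]
    rw [mem_smul_set]
    refine ⟨g • x, hgx, ?_⟩
    conv_rhs => rw [hx']
    rw [mul_smul, inv_smul_smul]
  · rintro h' hh' ⟨x0, hx0⟩
    unfold AEDisjoint
    rw [smul_set_iUnion, iUnion_inter]
    refine measure_iUnion_null fun i => ?_
    rw [inter_iUnion]
    refine measure_iUnion_null fun j => ?_
    -- `h' rᵢ s ∩ rⱼ s = rⱼ • ((rⱼ⁻¹ h' rᵢ) s ∩ s)`
    have hmem : (r j)⁻¹ * h' * r i ∈ Δ :=
      Δ.mul_mem (Δ.mul_mem (Δ.inv_mem (hr_mem j)) (hle hh')) (hr_mem i)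
    have hne : ∃ y : α, ((r j)⁻¹ * h' * r i) • y ≠ y := by
      by_contra hcon
      have hall : ∀ y : α, ((r j)⁻¹ * h' * r i) • y = y := fun y => by
        by_contra hy
        exact hcon ⟨y, hy⟩
      have hact : ∀ y : α, (h' * r i) • y = r j • y := fun y => by
        have := hall y
        rw [mul_assoc, mul_smul] at this
        rw [← this, smul_inv_smul]
        rw [this]
      have hij : i = j := hr_inj i j h' hh' hact
      subst hij
      apply hx0
      have := hact ((r i)⁻¹ • x0)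
      rw [mul_smul, smul_inv_smul] at this
      exact this
    have h1 := aedisjoint_smul_of_aedisjoint (μ := μ) (r j) (h.aedisjoint hmem hne)
    unfold AEDisjoint at h1
    have h2 : r j • (((r j)⁻¹ * h' * r i) • s) = h' • r i • s := by
      rw [← mul_smul, ← mul_smul]
      congr 1
      group
    rw [h2] at h1
    exact h1

omit [MeasurableConstSMul K α] in
/-- The translates `rᵢ • s` of a fundamental domain by inequivalent elements are pairwise
a.e.-disjoint. -/
theorem IsFD.pairwise_aedisjoint_reps {Δ : Subgroup K} {s : Set α} (h : IsFD μ Δ s)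
    {ι : Type*} (r : ι → K) (hr_mem : ∀ i, r i ∈ Δ)
    (hr_inj : ∀ i j, (∀ x : α, r i • x = r j • x) → i = j) :
    Pairwise (AEDisjoint μ on fun i => r i • s) := by
  intro i j hij
  have hmem : (r j)⁻¹ * r i ∈ Δ := Δ.mul_mem (Δ.inv_mem (hr_mem j)) (hr_mem i)
  have hne : ∃ y : α, ((r j)⁻¹ * r i) • y ≠ y := by
    by_contra hcon
    apply hij
    apply hr_inj
    intro y
    by_contra hy
    apply hcon
    refine ⟨y, fun hfix => hy ?_⟩
    rw [mul_smul] at hfix
    rw [← hfix, smul_inv_smul, hfix]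
  have h1 := aedisjoint_smul_of_aedisjoint (μ := μ) (r j) (h.aedisjoint hmem hne)
  have h2 : r j • (((r j)⁻¹ * r i) • s) = r i • s := by
    rw [← mul_smul, mul_inv_cancel_left]
  rw [h2] at h1
  exact h1

/-- Unfolding: the integral over `⋃ᵢ rᵢ • s` is the sum of the integrals over `s` of the
translated function. -/
theorem IsFD.setIntegral_iUnion {E : Type*} [NormedAddCommGroup E] [NormedSpace ℝ E]
    {Δ : Subgroup K} {s : Set α} (h : IsFD μ Δ s)
    {ι : Type*} [Fintype ι] (r : ι → K) (hr_mem : ∀ i, r i ∈ Δ)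
    (hr_inj : ∀ i j, (∀ x : α, r i • x = r j • x) → i = j)
    {f : α → E} (hf : IntegrableOn f (⋃ i, r i • s) μ) :
    ∫ x in ⋃ i, r i • s, f x ∂μ = ∑ i, ∫ x in s, f (r i • x) ∂μ := by
  rw [integral_iUnion_ae (fun i => h.nullMeasurableSet.smul (r i))
    (h.pairwise_aedisjoint_reps r hr_mem hr_inj) hf, tsum_fintype]
  refine Finset.sum_congr rfl fun i _ => ?_
  have hmp : MeasurePreserving (fun x : α => r i • x) μ μ := measurePreserving_smul (r i) μ
  have hemb : MeasurableEmbedding (fun x : α => r i • x) := measurableEmbedding_const_smul (r i)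
  rw [← image_smul]
  exact hmp.setIntegral_image_emb hemb f s

end Fermat.Agent.S33.Pet.Img
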