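/-
S33 / (G1) Petersson block, file 4 (Mathlib only).

Abstract adjointness of double-coset operators for the weight-2 Petersson product:
for a discrete group `Γ` with a finite-volume fundamental domain `F`, `b` of positive determinant,
`Γ = ⊔ᵢ (Γ ⊓ b⁻¹Γb) rAᵢ = ⊔ⱼ (Γ ⊓ bΓb⁻¹) rBⱼ`,
`∫_F ⟨∑ᵢ f∣(b rAᵢ), g⟩ = ∫_F ⟨f, ∑ⱼ g∣(b⁻¹ rBⱼ)⟩`.
-/
import Fermat.Agent.S33.Pet.ImgReps

set_option autoImplicit false

open MeasureTheory Set UpperHalfPlane
open scoped MatrixGroups ModularForm Manifold Pointwise ComplexConjugate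

namespace Fermat.Agent.S33.Pet.Adjoint

open Fermat.Agent.S33.Pet.Img

/-- weight-2 boundedness: `‖F τ‖ · im τ` is bounded on the upper half-plane -/
def Bdd (F : ℍ → ℂ) : Prop := ∃ C : ℝ, ∀ τ : ℍ, ‖F τ‖ * τ.im ≤ C

theorem norm_slash_two_mul_im (F : ℍ → ℂ) (g : GL (Fin 2) ℝ) (τ : ℍ) :
    ‖(F ∣[(2 : ℤ)] g) τ‖ * τ.im = ‖F (g • τ)‖ * (g • τ).im := by
  rw [ModularForm.slash_apply, im_smul_eq_div_normSq]
  have hd : denom g τ ≠ 0 := denom_ne_zero g τ
  have hn : Complex.normSq (denom g τ) ≠ 0 := by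
    rw [Ne, Complex.normSq_eq_zero]; exact hd
  rw [norm_mul, norm_mul, norm_σ, norm_zpow, norm_zpow, Complex.normSq_eq_norm_sq]
  simp only [Int.reduceSub, zpow_one, Int.reduceNeg, Complex.norm_real, Real.norm_eq_abs, abs_abs]
  rw [zpow_neg, zpow_ofNat]
  field_simp

theorem Bdd.slash {F : ℍ → ℂ} (h : Bdd F) (g : GL (Fin 2) ℝ) : Bdd (F ∣[(2 : ℤ)] g) := by
  obtain ⟨C, hC⟩ := h
  exact ⟨C, fun τ => by rw [norm_slash_two_mul_im]; exact hC _⟩

theorem Bdd.add {F G : ℍ → ℂ} (hF : Bdd F) (hG : Bdd G) : Bdd (F + G) := by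
  obtain ⟨C, hC⟩ := hF
  obtain ⟨D, hD⟩ := hG
  refine ⟨C + D, fun τ => ?_⟩
  have h1 : ‖(F + G) τ‖ ≤ ‖F τ‖ + ‖G τ‖ := norm_add_le _ _
  have h2 : 0 < τ.im := τ.im_pos
  nlinarith [hC τ, hD τ]

theorem Bdd.zero : Bdd (0 : ℍ → ℂ) := ⟨0, fun τ => by simp⟩

theorem Bdd.sum {ι : Type*} (s : Finset ι) {F : ι → ℍ → ℂ} (h : ∀ i ∈ s, Bdd (F i)) :
    Bdd (∑ i ∈ s, F i) := by
  classical
  induction s using Finset.induction_on with
  | empty => simpa using Bdd.zero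
  | insert i t hi IH =>
    rw [Finset.sum_insert hi]
    exact (h i (Finset.mem_insert_self i t)).add (IH fun j hj => h j (Finset.mem_insert_of_mem hj))

theorem Bdd.norm_petersson_le {F G : ℍ → ℂ} (hF : Bdd F) (hG : Bdd G) :
    ∃ C : ℝ, ∀ τ : ℍ, ‖petersson 2 F G τ‖ ≤ C := by
  obtain ⟨C, hC⟩ := hF
  obtain ⟨D, hD⟩ := hG
  refine ⟨C * D, fun τ => ?_⟩
  have h2 : 0 < τ.im := τ.im_pos
  have e : ‖petersson 2 F G τ‖ = (‖F τ‖ * τ.im) * (‖G τ‖ * τ.im) := by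
    unfold petersson
    rw [norm_mul, norm_mul, Complex.norm_conj, norm_zpow, Complex.norm_real, Real.norm_eq_abs,
      abs_of_pos h2, zpow_ofNat]
    ring
  rw [e]
  have h3 : 0 ≤ ‖F τ‖ * τ.im := by positivity
  have h4 : 0 ≤ ‖G τ‖ * τ.im := by positivity
  have hC0 : 0 ≤ C := h3.trans (hC τ)
  exact mul_le_mul (hC τ) (hD τ) h4 hC0

/-- `petersson 2` of continuous weight-2-bounded functions is integrable on sets of finite volume -/
theorem integrableOn_petersson {F G : ℍ → ℂ} (cF : Continuous F) (cG : Continuous G)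
    (bF : Bdd F) (bG : Bdd G) {s : Set ℍ} (hs : (volume : Measure ℍ) s < ⊤) :
    IntegrableOn (petersson 2 F G) s volume := by
  obtain ⟨C, hC⟩ := bF.norm_petersson_le bG
  refine Measure.integrableOn_of_bounded hs.ne ?_ (M := C) (Filter.Eventually.of_forall hC)
  exact (petersson_continuous 2 cF cG).aestronglyMeasurable

/-- the case `k = 2`, `det > 0` of `petersson_slash` -/
theorem petersson_slash_two (F G : ℍ → ℂ) {g : GL (Fin 2) ℝ} (hg : 0 < g.det.val) (τ : ℍ) :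
    petersson 2 (F ∣[(2 : ℤ)] g) (G ∣[(2 : ℤ)] g) τ = petersson 2 F G (g • τ) := by
  rw [petersson_slash]
  have hσ : σ g = ContinuousAlgEquiv.refl ℝ ℂ := by rw [σ, if_pos hg]
  rw [hσ]
  simp

theorem petersson_sum_left {ι : Type*} (s : Finset ι) (F : ι → ℍ → ℂ) (G : ℍ → ℂ) (τ : ℍ) :
    petersson 2 (∑ i ∈ s, F i) G τ = ∑ i ∈ s, petersson 2 (F i) G τ := by
  unfold petersson
  rw [Finset.sum_apply, map_sum, Finset.sum_mul, Finset.sum_mul]

theorem petersson_sum_right {ι : Type*} (s : Finset ι) (F : ℍ → ℂ) (G : ι → ℍ → ℂ) (τ : ℍ) :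
    petersson 2 F (∑ i ∈ s, G i) τ = ∑ i ∈ s, petersson 2 F (G i) τ := by
  unfold petersson
  rw [Finset.sum_apply, Finset.mul_sum, Finset.sum_mul]


/-- conjugating `Γ ⊓ b⁻¹Γb` by `b` gives `Γ ⊓ bΓb⁻¹` -/
theorem map_conj_inf {K : Type*} [Group K] (Γ : Subgroup K) (b : K) :
    (Γ ⊓ Γ.map (MulAut.conj b⁻¹).toMonoidHom).map (MulAut.conj b).toMonoidHom =
      Γ ⊓ Γ.map (MulAut.conj b).toMonoidHom := by
  ext x
  simp only [Subgroup.mem_map, Subgroup.mem_inf, MulEquiv.toMonoidHom_eq_coe, MonoidHom.coe_coe,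
    MulAut.conj_apply, inv_inv]
  constructor
  · rintro ⟨y, ⟨hy, z, hz, rfl⟩, rfl⟩
    refine ⟨?_, _, hy, rfl⟩
    simpa [mul_assoc] using hz
  · rintro ⟨hx, y, hy, rfl⟩
    refine ⟨y, ⟨hy, _, hx, ?_⟩, rfl⟩
    simp [mul_assoc]

theorem continuous_slash {F : ℍ → ℂ} (hF : MDiff F) (g : GL (Fin 2) ℝ) :
    Continuous (F ∣[(2 : ℤ)] g) := (hF.slash 2 g).continuous

/-- **Abstract adjointness of double-coset operators for the Petersson product (weight 2).** -/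
theorem integral_petersson_adjoint
    {Γ : Subgroup (GL (Fin 2) ℝ)} [Countable Γ] (hdet : ∀ γ ∈ Γ, 0 < γ.det.val)
    {F : Set ℍ} (hF : IsFD (volume : Measure ℍ) Γ F) (hFvol : (volume : Measure ℍ) F < ⊤)
    {f g : ℍ → ℂ} (hf : MDiff f) (hg : MDiff g) (bf : Bdd f) (bg : Bdd g)
    (hfΓ : ∀ γ ∈ Γ, f ∣[(2 : ℤ)] γ = f) (hgΓ : ∀ γ ∈ Γ, g ∣[(2 : ℤ)] γ = g)
    (b : GL (Fin 2) ℝ) (hb : 0 < b.det.val)
    {ι κ : Type*} [Fintype ι] [Fintype κ] (rA : ι → GL (Fin 2) ℝ) (rB : κ → GL (Fin 2) ℝ)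
    (rA_mem : ∀ i, rA i ∈ Γ)
    (rA_cov : ∀ γ ∈ Γ, ∃ i, ∃ h ∈ Γ ⊓ Γ.map (MulAut.conj b⁻¹).toMonoidHom,
      ∀ x : ℍ, γ • x = (h * rA i) • x)
    (rA_inj : ∀ i j, ∀ h ∈ Γ ⊓ Γ.map (MulAut.conj b⁻¹).toMonoidHom,
      (∀ x : ℍ, (h * rA i) • x = rA j • x) → i = j)
    (rB_mem : ∀ j, rB j ∈ Γ)
    (rB_cov : ∀ γ ∈ Γ, ∃ j, ∃ h ∈ Γ ⊓ Γ.map (MulAut.conj b).toMonoidHom,
      ∀ x : ℍ, γ • x = (h * rB j) • x)
    (rB_inj : ∀ i j, ∀ h ∈ Γ ⊓ Γ.map (MulAut.conj b).toMonoidHom,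
      (∀ x : ℍ, (h * rB i) • x = rB j • x) → i = j) :
    ∫ τ in F, petersson 2 (∑ i, f ∣[(2 : ℤ)] (b * rA i)) g τ =
      ∫ τ in F, petersson 2 f (∑ j, g ∣[(2 : ℤ)] (b⁻¹ * rB j)) τ := by
  classical
  set ΔA := Γ ⊓ Γ.map (MulAut.conj b⁻¹).toMonoidHom with hΔA
  set ΔB := Γ ⊓ Γ.map (MulAut.conj b).toMonoidHom with hΔB
  set FA : Set ℍ := ⋃ i, rA i • F with hFA_def
  set FB : Set ℍ := ⋃ j, rB j • F with hFB_def
  have : Countable ΔB :=
    Function.Injective.countable (f := Subgroup.inclusion (inf_le_left : ΔB ≤ Γ))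
      (Subgroup.inclusion_injective _)
  have hFA : IsFD (volume : Measure ℍ) ΔA FA := hF.of_reps inf_le_left rA rA_mem rA_cov rA_inj
  have hFB : IsFD (volume : Measure ℍ) ΔB FB := hF.of_reps inf_le_left rB rB_mem rB_cov rB_inj
  have hbFA : IsFD (volume : Measure ℍ) ΔB (b • FA) := by
    have := hFA.conj b
    rwa [hΔA, map_conj_inf] at this
  have rA_inj' : ∀ i j, (∀ x : ℍ, rA i • x = rA j • x) → i = j := fun i j h =>
    rA_inj i j 1 (one_mem _) (by simpa using h)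
  have rB_inj' : ∀ i j, (∀ x : ℍ, rB i • x = rB j • x) → i = j := fun i j h =>
    rB_inj i j 1 (one_mem _) (by simpa using h)
  have volFA : (volume : Measure ℍ) FA < ⊤ := by
    refine (measure_iUnion_le _).trans_lt ?_
    rw [tsum_fintype]
    refine ENNReal.sum_lt_top.2 fun i _ => ?_
    rw [measure_smul]; exact hFvol
  have volFB : (volume : Measure ℍ) FB < ⊤ := by
    refine (measure_iUnion_le _).trans_lt ?_
    rw [tsum_fintype]
    refine ENNReal.sum_lt_top.2 fun i _ => ?_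
    rw [measure_smul]; exact hFvol
  set φ : ℍ → ℂ := petersson 2 (f ∣[(2 : ℤ)] b) g with hφ
  set ψ : ℍ → ℂ := petersson 2 f (g ∣[(2 : ℤ)] b⁻¹) with hψ
  have h1 : ∀ i τ, petersson 2 (f ∣[(2 : ℤ)] (b * rA i)) g τ = φ (rA i • τ) := by
    intro i τ
    rw [SlashAction.slash_mul]
    conv_lhs => rw [← hgΓ (rA i) (rA_mem i)]
    exact petersson_slash_two _ _ (hdet _ (rA_mem i)) τ
  have h2 : ∀ τ, φ τ = ψ (b • τ) := by
    intro τ
    have hgb : g = (g ∣[(2 : ℤ)] b⁻¹) ∣[(2 : ℤ)] b := by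
      rw [← SlashAction.slash_mul, inv_mul_cancel, SlashAction.slash_one]
    rw [hφ]
    conv_lhs => rw [hgb]
    exact petersson_slash_two _ _ hb τ
  have h3 : ∀ δ ∈ ΔB, ∀ τ, ψ (δ • τ) = ψ τ := by
    rintro δ ⟨hδ, y, hy, hyδ⟩ τ
    rw [hψ, ← petersson_slash_two _ _ (hdet δ hδ), hfΓ δ hδ, ← SlashAction.slash_mul]
    have e : b⁻¹ * δ = y * b⁻¹ := by
      rw [← hyδ]; simp [MulAut.conj_apply, mul_assoc]
    rw [e, SlashAction.slash_mul, hgΓ y hy]
  have h4 : ∀ j τ, ψ (rB j • τ) = petersson 2 f (g ∣[(2 : ℤ)] (b⁻¹ * rB j)) τ := by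
    intro j τ
    rw [hψ, ← petersson_slash_two _ _ (hdet _ (rB_mem j)), hfΓ _ (rB_mem j),
      ← SlashAction.slash_mul]
  have cφ : Continuous φ := petersson_continuous 2 (continuous_slash hf b) hg.continuous
  have cψ : Continuous ψ := petersson_continuous 2 hf.continuous (continuous_slash hg b⁻¹)
  have iφ : ∀ s : Set ℍ, (volume : Measure ℍ) s < ⊤ → IntegrableOn φ s volume := fun s hs =>
    integrableOn_petersson (continuous_slash hf b) hg.continuous (bf.slash b) bg hs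
  have iψ : ∀ s : Set ℍ, (volume : Measure ℍ) s < ⊤ → IntegrableOn ψ s volume := fun s hs =>
    integrableOn_petersson hf.continuous (continuous_slash hg b⁻¹) bf (bg.slash b⁻¹) hs
  have iφr : ∀ i, IntegrableOn (fun τ => φ (rA i • τ)) F volume := by
    intro i
    have : (fun τ => φ (rA i • τ)) = petersson 2 (f ∣[(2 : ℤ)] (b * rA i)) g := by
      funext τ; exact (h1 i τ).symm
    rw [this]
    exact integrableOn_petersson (continuous_slash hf _) hg.continuous (bf.slash _) bg hFvol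
  have iψr : ∀ j, IntegrableOn (fun τ => ψ (rB j • τ)) F volume := by
    intro j
    have : (fun τ => ψ (rB j • τ)) = petersson 2 f (g ∣[(2 : ℤ)] (b⁻¹ * rB j)) := by
      funext τ; exact h4 j τ
    rw [this]
    exact integrableOn_petersson hf.continuous (continuous_slash hg _) bf (bg.slash _) hFvol
  calc ∫ τ in F, petersson 2 (∑ i, f ∣[(2 : ℤ)] (b * rA i)) g τ
      = ∫ τ in F, ∑ i, φ (rA i • τ) := by
        refine integral_congr_ae (Filter.Eventually.of_forall fun τ => ?_)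
        show petersson 2 (∑ i, f ∣[(2 : ℤ)] (b * rA i)) g τ = ∑ i, φ (rA i • τ)
        rw [petersson_sum_left]
        exact Finset.sum_congr rfl fun i _ => h1 i τ
    _ = ∑ i, ∫ τ in F, φ (rA i • τ) := integral_finsetSum _ fun i _ => iφr i
    _ = ∫ τ in FA, φ τ := (hF.setIntegral_iUnion rA rA_mem rA_inj' (iφ _ volFA)).symm
    _ = ∫ τ in FA, ψ (b • τ) := by
        refine integral_congr_ae (Filter.Eventually.of_forall fun τ => ?_)
        exact h2 τ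
    _ = ∫ τ in b • FA, ψ τ := by
        have hmp : MeasurePreserving (fun x : ℍ => b • x) volume volume :=
          measurePreserving_smul b volume
        have hemb : MeasurableEmbedding (fun x : ℍ => b • x) := measurableEmbedding_const_smul b
        rw [← image_smul]
        exact (hmp.setIntegral_image_emb hemb ψ FA).symm
    _ = ∫ τ in FB, ψ τ := hbFA.setIntegral_eq hFB h3
    _ = ∑ j, ∫ τ in F, ψ (rB j • τ) := hF.setIntegral_iUnion rB rB_mem rB_inj' (iψ _ volFB)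
    _ = ∫ τ in F, ∑ j, ψ (rB j • τ) := (integral_finsetSum _ fun j _ => iψr j).symm
    _ = ∫ τ in F, petersson 2 f (∑ j, g ∣[(2 : ℤ)] (b⁻¹ * rB j)) τ := by
        refine integral_congr_ae (Filter.Eventually.of_forall fun τ => ?_)
        show ∑ j, ψ (rB j • τ) = petersson 2 f (∑ j, g ∣[(2 : ℤ)] (b⁻¹ * rB j)) τ
        rw [petersson_sum_right]
        exact Finset.sum_congr rfl fun j _ => h4 j τ

end Fermat.Agent.S33.Pet.Adjoint
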