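/-
S33 / (G1) Petersson block, file 3 (Mathlib only).

The standard domain `𝒟` is a fundamental domain (in the sense of `Img.IsFD`) for `𝒮ℒ = SL(2,ℤ)`
acting on the upper half-plane with its invariant measure; it has finite volume.
-/
import Fermat.Agent.S33.Pet.ImgReps

set_option autoImplicit false

open MeasureTheory Set UpperHalfPlane
open scoped MatrixGroups Modular Pointwise ENNReal NNReal

namespace Fermat.Agent.S33.Pet.ModularFD

open Fermat.Agent.S33.Pet.Img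

/-- the image of `g : SL(2,ℤ)` in `GL(2,ℝ)` -/
noncomputable abbrev toGLR (g : SL(2, ℤ)) : GL (Fin 2) ℝ := Matrix.SpecialLinearGroup.mapGL ℝ g

theorem toGLR_mem (g : SL(2, ℤ)) : toGLR g ∈ 𝒮ℒ := ⟨g, rfl⟩

theorem toGLR_smul (g : SL(2, ℤ)) (z : ℍ) : toGLR g • z = g • z :=
  (MulAction.compHom_smul_def (Matrix.SpecialLinearGroup.mapGL ℝ) g z).symm

theorem exists_of_mem_SLZ {g : GL (Fin 2) ℝ} (hg : g ∈ 𝒮ℒ) : ∃ γ : SL(2, ℤ), toGLR γ = g := hg

theorem volume_re_eq (c : ℝ) : (volume : Measure ℂ) {z : ℂ | z.re = c} = 0 := by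
  have := Complex.volume_preserving_equiv_real_prod
  have h : {z : ℂ | z.re = c} = Complex.measurableEquivRealProd ⁻¹' ({c} ×ˢ Set.univ) := by
    ext z; simp [Complex.measurableEquivRealProd]
  rw [h, this.measure_preimage (by measurability)]
  show (volume : Measure (ℝ × ℝ)) _ = 0
  rw [Measure.volume_eq_prod, Measure.prod_prod]
  simp

/-- A subset of `ℍ` whose image in `ℂ` is Lebesgue-null is null for the invariant measure. -/
theorem volume_eq_zero_of_coe_image {s : Set ℍ}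
    (hs : (volume : Measure ℂ) (UpperHalfPlane.coe '' s) = 0) : (volume : Measure ℍ) s = 0 := by
  rw [volume_eq_lintegral]
  exact setLIntegral_measure_zero _ _ hs

theorem volume_fd_diff_fdo : (volume : Measure ℍ) (𝒟 \ 𝒟ᵒ) = 0 := by
  apply volume_eq_zero_of_coe_image
  have hsub : UpperHalfPlane.coe '' (𝒟 \ 𝒟ᵒ) ⊆
      Metric.sphere (0 : ℂ) 1 ∪ ({z : ℂ | z.re = 1 / 2} ∪ {z : ℂ | z.re = -(1 / 2)}) := by
    rintro _ ⟨z, ⟨hz, hz'⟩, rfl⟩
    obtain ⟨h1, h2⟩ := hz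
    by_cases hn : 1 < Complex.normSq (z : ℂ)
    · right
      have h3 : ¬ |z.re| < 1 / 2 := fun h => hz' ⟨hn, h⟩
      have h4 : |z.re| = 1 / 2 := le_antisymm h2 (not_lt.1 h3)
      rcases abs_eq (by norm_num : (0 : ℝ) ≤ 1 / 2) |>.1 h4 with h5 | h5
      · left; exact h5
      · right; exact h5
    · left
      have h3 : Complex.normSq (z : ℂ) = 1 := le_antisymm (not_lt.1 hn) h1
      rw [mem_sphere_zero_iff_norm]
      rw [Complex.normSq_eq_norm_sq] at h3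
      have hnn : (0 : ℝ) ≤ ‖(z : ℂ)‖ := norm_nonneg _
      nlinarith
  refine measure_mono_null hsub ?_
  refine measure_union_null (Measure.addHaar_sphere _ _ _) (measure_union_null ?_ ?_)
  · exact volume_re_eq _
  · exact volume_re_eq _

theorem measurableSet_fd : MeasurableSet (𝒟 : Set ℍ) := ModularGroup.isClosed_fd.measurableSet

/-- `𝒟` is a fundamental domain for `SL(2,ℤ)` acting on `ℍ`. -/
theorem isFD_fd : IsFD (volume : Measure ℍ) 𝒮ℒ 𝒟 := by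
  refine isFD_of measurableSet_fd.nullMeasurableSet ?_ ?_
  · refine Filter.Eventually.of_forall fun x => ?_
    obtain ⟨g, hg⟩ := ModularGroup.exists_smul_mem_fd x
    exact ⟨toGLR g, toGLR_mem g, by rw [toGLR_smul]; exact hg⟩
  · rintro g' hg' ⟨x, hx⟩
    obtain ⟨g, rfl⟩ := exists_of_mem_SLZ hg'
    have hsub : toGLR g • (𝒟 : Set ℍ) ∩ 𝒟 ⊆ toGLR g • (𝒟 \ 𝒟ᵒ) := by
      rintro _ ⟨⟨y, hy, rfl⟩, hy'⟩
      refine ⟨y, ⟨hy, fun hyo => ?_⟩, rfl⟩
      have hy'' : g • y ∈ 𝒟 := by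
        have := hy'
        simp only [toGLR_smul] at this
        exact this
      rcases ModularGroup.eq_one_or_neg_one_of_mem_fdo_mem_fd hyo hy'' with h1 | h1
      · apply hx
        rw [toGLR_smul, h1, one_smul]
      · apply hx
        rw [toGLR_smul, h1]
        exact ModularGroup.SL_neg_smul 1 x |>.trans (one_smul _ x)
    unfold AEDisjoint
    refine measure_mono_null hsub ?_
    rw [measure_smul]
    exact volume_fd_diff_fdo

theorem lintegral_inv_sq_lt_top :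
    ∫⁻ y in Ioi (1/2 : ℝ), (((1 / ‖y‖₊) ^ 2 : ℝ≥0) : ℝ≥0∞) < ⊤ := by
  have h := integrableOn_Ioi_rpow_of_lt (a := -2) (by norm_num) (c := (1/2 : ℝ)) (by norm_num)
  have h2 := h.hasFiniteIntegral
  unfold HasFiniteIntegral at h2
  refine lt_of_le_of_lt (le_of_eq ?_) h2
  refine setLIntegral_congr_fun measurableSet_Ioi fun y hy => ?_
  have hy0 : (0 : ℝ) < y := lt_trans (by norm_num) hy
  rw [enorm_eq_nnnorm]
  congr 1
  ext
  simp only [one_div, inv_pow, NNReal.coe_inv, NNReal.coe_pow, coe_nnnorm, Real.norm_eq_abs]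
  rw [abs_of_pos hy0, abs_of_pos (by positivity)]
  rw [show (-2 : ℝ) = -((2 : ℕ) : ℝ) by norm_num, Real.rpow_neg hy0.le, Real.rpow_natCast]

/-- `𝒟` has finite volume. -/
theorem volume_fd_lt_top : (volume : Measure ℍ) 𝒟 < ⊤ := by
  rw [volume_eq_lintegral]
  set S : Set ℂ := Complex.measurableEquivRealProd ⁻¹' (Icc (-(1/2) : ℝ) (1/2) ×ˢ Ioi (1/2 : ℝ)) with hS
  have hsub : UpperHalfPlane.coe '' (𝒟 : Set ℍ) ⊆ S := by
    rintro _ ⟨z, hz, rfl⟩
    have h3 := ModularGroup.three_le_four_mul_im_sq_of_mem_fd hz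
    have him : 0 < z.im := z.im_pos
    simp only [hS, mem_preimage, mem_prod, mem_Icc, mem_Ioi, Complex.measurableEquivRealProd_apply]
    refine ⟨abs_le.1 hz.2, ?_⟩
    show (1/2 : ℝ) < z.im
    nlinarith
  refine lt_of_le_of_lt (lintegral_mono_set hsub) ?_
  have hmeas : Measurable (fun p : ℝ × ℝ => (((1 / ‖p.2‖₊) ^ 2 : ℝ≥0) : ℝ≥0∞)) := by
    fun_prop
  have hS' : MeasurableSet (Icc (-(1/2) : ℝ) (1/2) ×ˢ Ioi (1/2 : ℝ)) :=
    measurableSet_Icc.prod measurableSet_Ioi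
  have key := Complex.volume_preserving_equiv_real_prod.setLIntegral_comp_preimage hS' hmeas
  have hL : ∫⁻ z in S, (((1 / ‖z.im‖₊) ^ 2 : ℝ≥0) : ℝ≥0∞) =
      ∫⁻ p in Icc (-(1/2) : ℝ) (1/2) ×ˢ Ioi (1/2 : ℝ), (((1 / ‖p.2‖₊) ^ 2 : ℝ≥0) : ℝ≥0∞) := by
    rw [← key]
    rfl
  rw [hL, Measure.volume_eq_prod, ← Measure.prod_restrict]
  have hmul : ∀ p : ℝ × ℝ, (((1 / ‖p.2‖₊) ^ 2 : ℝ≥0) : ℝ≥0∞) =
      (fun _ : ℝ => (1 : ℝ≥0∞)) p.1 * (fun y : ℝ => (((1 / ‖y‖₊) ^ 2 : ℝ≥0) : ℝ≥0∞)) p.2 := by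
    intro p; simp
  rw [lintegral_congr hmul]
  have hprod := lintegral_prod_mul (μ := (volume : Measure ℝ).restrict (Icc (-(1/2) : ℝ) (1/2)))
    (ν := (volume : Measure ℝ).restrict (Ioi (1/2 : ℝ)))
    (f := fun _ : ℝ => (1 : ℝ≥0∞)) (g := fun y : ℝ => (((1 / ‖y‖₊) ^ 2 : ℝ≥0) : ℝ≥0∞))
    (by fun_prop) (by fun_prop)
  rw [hprod]
  refine ENNReal.mul_lt_top ?_ lintegral_inv_sq_lt_top
  simp

end Fermat.Agent.S33.Pet.ModularFD
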