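/-
S33 / (G1) Petersson block, file 5 (Mathlib only).

The Petersson inner product on `S₂(Γ₀(N))`: fundamental domain `FN N` for `Γ₀(N)` of finite volume,
`pet N f g = ∫_{FN N} conj f · g · y² dμ`, biadditivity and definiteness.
-/
import Fermat.Agent.S33.Pet.ModularFD
import Fermat.Agent.S33.Pet.Adjoint

set_option autoImplicit false

open MeasureTheory Set UpperHalfPlane CongruenceSubgroup
open scoped MatrixGroups ModularForm Manifold Pointwise ComplexConjugate Modular NNReal ENNReal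

namespace Fermat.Agent.S33.Pet.Inner

open Fermat.Agent.S33.Pet.Img Fermat.Agent.S33.Pet.ModularFD Fermat.Agent.S33.Pet.Adjoint

/-- an element of `SL(2,ℤ)` acting trivially on the upper half-plane is `±1` -/
theorem eq_one_or_neg_one_of_smul_eq (g : SL(2, ℤ)) (h : ∀ x : ℍ, g • x = x) : g = 1 ∨ g = -1 := by
  have hy : (⟨2 * Complex.I, by simp⟩ : ℍ) ∈ 𝒟ᵒ := by
    constructor
    · show 1 < Complex.normSq (2 * Complex.I)
      simp [Complex.normSq_apply]
      norm_num
    · show |(2 * Complex.I).re| < 1 / 2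
      simp
  refine ModularGroup.eq_one_or_neg_one_of_mem_fdo_mem_fd hy ?_
  rw [h]
  exact ModularGroup.fdo_subset_fd hy

instance instCountableSLZ : Countable SL(2, ℤ) := by
  have : Countable (Matrix (Fin 2) (Fin 2) ℤ) := inferInstanceAs (Countable (Fin 2 → Fin 2 → ℤ))
  exact Function.Injective.countable (f := fun g : SL(2, ℤ) => (g : Matrix (Fin 2) (Fin 2) ℤ))
    Subtype.val_injective

instance instCountableQuot (Γ : Subgroup SL(2, ℤ)) : Countable (SL(2, ℤ) ⧸ Γ) :=
  (QuotientGroup.mk_surjective (s := Γ)).countable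

instance instCountableMapGL (Γ : Subgroup SL(2, ℤ)) :
    Countable (Γ : Subgroup (GL (Fin 2) ℝ)) := by
  have h : (((Γ : Subgroup (GL (Fin 2) ℝ))) : Set (GL (Fin 2) ℝ)) =
      (Matrix.SpecialLinearGroup.mapGL ℝ) '' (Γ : Set SL(2, ℤ)) := Subgroup.coe_map _ _
  exact Set.countable_coe_iff.2 (h ▸ (Set.to_countable _).image _)

theorem toGLR_mul (g h : SL(2, ℤ)) : toGLR (g * h) = toGLR g * toGLR h := map_mul _ _ _

theorem toGLR_inv (g : SL(2, ℤ)) : toGLR g⁻¹ = (toGLR g)⁻¹ := map_inv _ _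

theorem neg_mem_Gamma0 {N : ℕ} {g : SL(2, ℤ)} (hg : g ∈ Gamma0 N) : -g ∈ Gamma0 N := by
  rw [Gamma0_mem] at hg ⊢
  simpa using hg

/-- the standard fundamental domain for `Γ₀(N)` -/
noncomputable def FN (N : ℕ) : Set ℍ :=
  ⋃ q : SL(2, ℤ) ⧸ Gamma0 N, toGLR (q.out)⁻¹ • (𝒟 : Set ℍ)

theorem isFD_FN (N : ℕ) :
    IsFD (volume : Measure ℍ) (Gamma0 N : Subgroup (GL (Fin 2) ℝ)) (FN N) := by
  refine isFD_fd.of_reps (Subgroup.map_le_range _ _) (fun q : SL(2, ℤ) ⧸ Gamma0 N => toGLR (q.out)⁻¹)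
    (fun q => toGLR_mem _) ?_ ?_
  · intro g hg
    obtain ⟨γ, rfl⟩ := exists_of_mem_SLZ hg
    set q : SL(2, ℤ) ⧸ Gamma0 N := QuotientGroup.mk γ⁻¹ with hq
    have hmem : γ * q.out ∈ Gamma0 N := by
      have h1 : (QuotientGroup.mk q.out : SL(2, ℤ) ⧸ Gamma0 N) = QuotientGroup.mk γ⁻¹ :=
        QuotientGroup.out_eq' q
      have h2 := QuotientGroup.eq.1 h1.symm
      simpa using h2
    refine ⟨q, toGLR (γ * q.out), Subgroup.mem_map_of_mem _ hmem, fun x => ?_⟩
    rw [← toGLR_mul, mul_assoc, mul_inv_cancel, mul_one]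
  · intro qi qj h' hh' hact
    obtain ⟨h'', hh'', rfl⟩ := Subgroup.mem_map.1 hh'
    -- `(qj.out * h'' * qi.out⁻¹)` acts trivially
    have htriv : ∀ x : ℍ, (qj.out * (h'' * (qi.out)⁻¹)) • x = x := by
      intro x
      have := hact x
      rw [← toGLR_mul, toGLR_smul, toGLR_smul] at this
      rw [mul_smul, this, smul_inv_smul]
    rw [← QuotientGroup.out_eq' qi, ← QuotientGroup.out_eq' qj]
    rw [QuotientGroup.eq]
    rcases eq_one_or_neg_one_of_smul_eq _ htriv with h1 | h1
    · -- qi.out⁻¹ * qj.out = h''⁻¹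
      have : (qi.out)⁻¹ * qj.out = h''⁻¹ := by
        have h2 : qj.out * h'' = qi.out := by
          have := congrArg (· * qi.out) h1
          simpa [mul_assoc] using this
        rw [← h2]; group
      rw [this]; exact inv_mem hh''
    · have : (qi.out)⁻¹ * qj.out = (-h'')⁻¹ := by
        have h2 : qj.out * h'' = -qi.out := by
          have := congrArg (· * qi.out) h1
          simpa [mul_assoc] using this
        have h3 : qi.out = qj.out * (-h'') := by
          rw [mul_neg, h2, neg_neg]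
        rw [h3]; group
      rw [this]; exact inv_mem (neg_mem_Gamma0 hh'')


theorem volume_FN_lt_top (N : ℕ) [NeZero N] : (volume : Measure ℍ) (FN N) < ⊤ := by
  have : Fintype (SL(2, ℤ) ⧸ Gamma0 N) := Subgroup.fintypeQuotientOfFiniteIndex
  refine (measure_iUnion_le _).trans_lt ?_
  rw [tsum_fintype]
  refine ENNReal.sum_lt_top.2 fun i _ => ?_
  rw [measure_smul]; exact volume_fd_lt_top

/-- nonempty open subsets of the upper half-plane have positive volume -/
theorem volume_pos_of_isOpen {U : Set ℍ} (hU : IsOpen U) (hne : U.Nonempty) :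
    0 < (volume : Measure ℍ) U := by
  rw [pos_iff_ne_zero]
  intro h0
  have hc1 : Continuous (fun z : ℍ => (NNReal.mk z.im z.im_pos.le : ℝ≥0)) :=
    continuous_im.subtype_mk _
  have hcont : Continuous (fun z : ℍ => ((1 / NNReal.mk z.im z.im_pos.le : ℝ≥0) ^ 2 : ℝ≥0)) :=
    (continuous_const.div₀ hc1 (fun x ↦ NNReal.ne_iff.mp x.im_ne_zero)).pow _
  have hmeas : Measurable
      (fun z : ℍ => (((1 / NNReal.mk z.im z.im_pos.le : ℝ≥0) ^ 2 : ℝ≥0) : ℝ≥0∞)) :=
    (ENNReal.continuous_coe.comp hcont).measurable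
  rw [volume_def, withDensity_apply_eq_zero' hmeas.aemeasurable] at h0
  have hall : {x : ℍ | ((((1 / NNReal.mk x.im x.im_pos.le : ℝ≥0) ^ 2 : ℝ≥0)) : ℝ≥0∞) ≠ 0} = univ := by
    ext x
    simp only [mem_univ, iff_true]
    have h1 : (NNReal.mk x.im x.im_pos.le) ≠ 0 := NNReal.ne_iff.mp x.im_ne_zero
    exact ENNReal.coe_ne_zero.2 (pow_ne_zero _ (div_ne_zero one_ne_zero h1))
  rw [hall, univ_inter, measurableEmbedding_coe.comap_apply] at h0
  have hopen : IsOpen (UpperHalfPlane.coe '' U) := isOpenEmbedding_coe.isOpenMap U hU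
  exact (hopen.measure_pos volume (hne.image _)).ne' h0

variable {N : ℕ} [NeZero N]

theorem bdd_cuspForm (f : CuspForm (Gamma0 N : Subgroup (GL (Fin 2) ℝ)) 2) : Bdd f := by
  obtain ⟨C, hC⟩ := CuspFormClass.exists_bound (k := 2) (Γ := (Gamma0 N : Subgroup (GL (Fin 2) ℝ))) f
  refine ⟨C, fun τ => ?_⟩
  have h := hC τ
  have hpos : 0 < τ.im := τ.im_pos
  have e : τ.im ^ (((2 : ℤ) : ℝ) / 2) = τ.im := by norm_num
  rw [e] at h
  rwa [le_div_iff₀ hpos] at h

omit [NeZero N] in
theorem mdiff_cuspForm (f : CuspForm (Gamma0 N : Subgroup (GL (Fin 2) ℝ)) 2) : MDiff (f : ℍ → ℂ) :=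
  CuspFormClass.holo f

omit [NeZero N] in
theorem slash_cuspForm (f : CuspForm (Gamma0 N : Subgroup (GL (Fin 2) ℝ)) 2) (γ : GL (Fin 2) ℝ)
    (hγ : γ ∈ (Gamma0 N : Subgroup (GL (Fin 2) ℝ))) : (f : ℍ → ℂ) ∣[(2 : ℤ)] γ = f :=
  SlashInvariantFormClass.slash_action_eq f γ hγ

/-- The Petersson inner product on weight 2 cusp forms of level `Γ₀(N)` (not normalised). -/
noncomputable def pet (N : ℕ) (f g : CuspForm (Gamma0 N : Subgroup (GL (Fin 2) ℝ)) 2) : ℂ :=
  ∫ τ in FN N, petersson 2 f g τ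

theorem integrableOn_pet (f g : CuspForm (Gamma0 N : Subgroup (GL (Fin 2) ℝ)) 2) :
    IntegrableOn (petersson 2 f g) (FN N) volume :=
  integrableOn_petersson (mdiff_cuspForm f).continuous (mdiff_cuspForm g).continuous
    (bdd_cuspForm f) (bdd_cuspForm g) (volume_FN_lt_top N)

theorem pet_add_left (f g h : CuspForm (Gamma0 N : Subgroup (GL (Fin 2) ℝ)) 2) :
    pet N (f + g) h = pet N f h + pet N g h := by
  unfold pet
  rw [← integral_add (integrableOn_pet f h) (integrableOn_pet g h)]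
  refine integral_congr_ae (Filter.Eventually.of_forall fun τ => ?_)
  simp only [petersson, FunLike.coe_add, Pi.add_apply, map_add]
  ring

theorem pet_add_right (f g h : CuspForm (Gamma0 N : Subgroup (GL (Fin 2) ℝ)) 2) :
    pet N f (g + h) = pet N f g + pet N f h := by
  unfold pet
  rw [← integral_add (integrableOn_pet f g) (integrableOn_pet f h)]
  refine integral_congr_ae (Filter.Eventually.of_forall fun τ => ?_)
  simp only [petersson, FunLike.coe_add, Pi.add_apply]
  ring



theorem petersson_self_eq (F : ℍ → ℂ) (τ : ℍ) :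
    petersson 2 F F τ = ((‖F τ‖ ^ 2 * τ.im ^ 2 : ℝ) : ℂ) := by
  unfold petersson
  rw [Complex.conj_mul']
  push_cast
  rfl

/-- definiteness of the Petersson product -/
theorem pet_self_eq_zero (f : CuspForm (Gamma0 N : Subgroup (GL (Fin 2) ℝ)) 2)
    (h : pet N f f = 0) : f = 0 := by
  set hh : ℍ → ℝ := fun τ => ‖f τ‖ ^ 2 * τ.im ^ 2 with hhdef
  have hcont : Continuous hh := by
    have : Continuous (f : ℍ → ℂ) := (mdiff_cuspForm f).continuous
    have him : Continuous (fun τ : ℍ => τ.im) := UpperHalfPlane.continuous_im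
    fun_prop
  have hnn : ∀ τ, 0 ≤ hh τ := fun τ => by positivity
  have hpet : ∀ τ, petersson 2 f f τ = ((hh τ : ℝ) : ℂ) := fun τ => petersson_self_eq f τ
  -- integral of `hh` vanishes
  have hint : IntegrableOn hh (FN N) volume := by
    have := (integrableOn_pet f f).re
    refine this.congr (Filter.Eventually.of_forall fun τ => ?_)
    simp only [RCLike.re_to_complex]
    rw [hpet]; simp
  have h0 : ∫ τ in FN N, hh τ = 0 := by
    have h1 : pet N f f = ((∫ τ in FN N, hh τ : ℝ) : ℂ) := by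
      unfold pet
      rw [← integral_complex_ofReal]
      exact integral_congr_ae (Filter.Eventually.of_forall fun τ => hpet τ)
    rw [h1] at h
    exact_mod_cast h
  have hae : hh =ᵐ[volume.restrict (FN N)] 0 :=
    (integral_eq_zero_iff_of_nonneg hnn hint).1 h0
  -- the support of `hh` is an invariant open set meeting the fundamental domain in a null set
  set t : Set ℍ := {τ | hh τ ≠ 0} with ht
  have htopen : IsOpen t := isOpen_ne_fun hcont continuous_const
  have hts : (volume : Measure ℍ) (t ∩ FN N) = 0 := by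
    have h1 := ae_iff.1 hae
    rw [Measure.restrict_apply₀' (isFD_FN N).nullMeasurableSet] at h1
    exact h1
  have hhinv : ∀ g ∈ (Gamma0 N : Subgroup (GL (Fin 2) ℝ)), ∀ τ, hh (g • τ) = hh τ := by
    intro g hg τ
    have h1 : petersson 2 f f (g • τ) = petersson 2 f f τ :=
      SlashInvariantFormClass.petersson_smul hg
    rw [hpet, hpet] at h1
    exact_mod_cast h1
  have hinv : ∀ e : img (α := ℍ) (Gamma0 N : Subgroup (GL (Fin 2) ℝ)), e • t = t := by
    intro e
    obtain ⟨g, hg, rfl⟩ := exists_eq_toImg _ e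
    rw [toImg_smul_set]
    ext x
    rw [mem_smul_set_iff_inv_smul_mem]
    simp only [ht, mem_ofPred_eq]
    rw [hhinv g⁻¹ (inv_mem hg)]
  have hμt : (volume : Measure ℍ) t = 0 :=
    IsFundamentalDomain.measure_zero_of_invariant (isFD_FN N) t hinv hts
  have htempty : t = ∅ := by
    by_contra hne
    exact (volume_pos_of_isOpen htopen (nonempty_iff_ne_empty.2 hne)).ne' hμt
  apply DFunLike.ext
  intro τ
  have : τ ∉ t := by rw [htempty]; exact notMem_empty τ
  simp only [ht, mem_ofPred_eq, not_not, hhdef] at this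
  have hpos : 0 < τ.im := τ.im_pos
  have : ‖f τ‖ ^ 2 = 0 := by
    rcases mul_eq_zero.1 this with h1 | h1
    · exact h1
    · exact absurd h1 (by positivity)
  simpa using this

end Fermat.Agent.S33.Pet.Inner
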