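/-
S33 / (G1) Petersson block, file 6: the Hecke operators `T_ℓ`, `ℓ ∤ N`, are self-adjoint for the
Petersson product on `S₂(Γ₀(N))`; hence the analytic input `PeterssonHyp N` of `G1/Reduced` holds and
the Hecke algebra (and every `T` of a `HeckeGaloisRepDatum`) is reduced, unconditionally.
-/
import Fermat.Agent.S33.Pet.Inner
import Fermat.Agent.S33.Pet.HeckeCosets
import Fermat.Agent.S33.G1.Reduced

set_option autoImplicit false

open MeasureTheory Set UpperHalfPlane CongruenceSubgroup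
open scoped MatrixGroups ModularForm Manifold Pointwise

namespace Fermat.Agent.S33.Pet.Main

open Fermat.Agent.S33.Pet.Img Fermat.Agent.S33.Pet.Adjoint Fermat.Agent.S33.Pet.Inner
  Fermat.Agent.S33.Pet.HeckeCosets

variable {N : ℕ} [NeZero N]

omit [NeZero N] in
theorem det_pos_of_mem_Gamma0 (γ : GL (Fin 2) ℝ)
    (hγ : γ ∈ (Gamma0 N : Subgroup (GL (Fin 2) ℝ))) : 0 < γ.det.val := by
  have h : γ.det = 1 := Subgroup.HasDetOne.det_eq hγ
  rw [h]; simp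

/-- **The Hecke operators `T_ℓ`, `ℓ ∤ N`, are self-adjoint for the Petersson product.** -/
theorem pet_heckeT {ℓ : ℕ} (hℓ : ℓ.Prime) (hℓN : ¬ ℓ ∣ N)
    (f g : CuspForm (Gamma0 N : Subgroup (GL (Fin 2) ℝ)) 2) :
    pet N (CuspForm.heckeTLin 2 hℓ hℓN f) g = pet N f (CuspForm.heckeTLin 2 hℓ hℓN g) := by
  unfold pet
  rw [CuspForm.coe_heckeTLin_apply, CuspForm.coe_heckeTLin_apply,
    heckeT_eq_sum_A hℓ hℓN f (slash_cuspForm f), heckeT_eq_sum_B hℓ hℓN g (slash_cuspForm g)]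
  refine integral_petersson_adjoint (Γ := (Gamma0 N : Subgroup (GL (Fin 2) ℝ)))
    det_pos_of_mem_Gamma0 (isFD_FN N) (volume_FN_lt_top N) (mdiff_cuspForm f) (mdiff_cuspForm g)
    (bdd_cuspForm f) (bdd_cuspForm g) (slash_cuspForm f) (slash_cuspForm g) (bp ℓ)
    (ModularForm.det_heckeMatrix_pos ℓ 0) (rA hℓ hℓN) (rB hℓ hℓN) (rA_mem hℓ hℓN) ?_
    (rA_inj hℓ hℓN) (rB_mem hℓ hℓN) ?_ (rB_inj hℓ hℓN)
  · intro γ hγ
    obtain ⟨i, h, hh, e⟩ := rA_cov hℓ hℓN γ hγ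
    exact ⟨i, h, hh, fun x => by rw [e]⟩
  · intro γ hγ
    obtain ⟨i, h, hh, e⟩ := rB_cov hℓ hℓN γ hγ
    exact ⟨i, h, hh, fun x => by rw [e]⟩

/-- **(RED), analytic input: the Petersson hypothesis holds.** -/
theorem peterssonHyp (N : ℕ) [NeZero N] : Fermat.Agent.S33.G1.Reduced.PeterssonHyp N :=
  ⟨pet N, pet_add_left, pet_add_right, pet_self_eq_zero,
    fun _ hℓ hℓN f g => pet_heckeT hℓ hℓN f g⟩

/-- **(RED)**: the Hecke algebra away from `S ⊇ {q ∣ N}` is reduced. -/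
theorem isReduced_heckeAlgebra (N : ℕ) [NeZero N] {S : Set ℕ}
    (hNS : ∀ q : ℕ, q.Prime → q ∣ N → q ∈ S) : IsReduced (CuspForm.heckeAlgebra N 2 S) :=
  Fermat.Agent.S33.G1.Reduced.isReduced_heckeAlgebra (peterssonHyp N) hNS

end Fermat.Agent.S33.Pet.Main
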